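/-
T1A (S19), brick G2-X MODEL-FACTS (helper62), file 5: the hub facts WIRED with helper51's base change
isomorphisms `ModelBC51.ModelEquiv.equiv0/equiv1/equiv01`.

Setting: `hK : TwoChartModel R K F π t B0 B1 Ov` (the model over the small field, `R = W`),
`hL : TwoChartModel R' L F' π' (D.iF t) B0' B1' Ov'` (the model over `L`, `R' = O`),
`D : BCData K L π π' Ov Ov'`, `[Algebra R R']` with `algebraMap R R' = D.iR`.  Hub rings
`C_0 = R' ⊗[R] ↥B0`, `C_1 = R' ⊗[R] ↥B1`, `C_01 = R' ⊗[R] ↥(B0 ⊔ B1)`.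

* (T1) `isDomain0/1/01`, `isNoetherianRing0/1`, `flat0/1/01`;
* (T2) `smooth0/1`; (T3) `tmul_sub_ne_zero0/1`;
* packaged `invertible_ptIdeal0/1` : the ideal of every `R'`-point of a hub chart is invertible;
* (T4)-(T6) `pi_regular0/1/01`, `prime_pi_hub0/1/01`, `pi_not_isUnit_hub01`;
* (T8) `h0Const` : `CoordInj23.H0Const R' C_0 C_1 C_01` for any algebra structures
  `↥B_j → ↥(B0 ⊔ B1)` which are the inclusions.
-/
import Mathlib
import Fermat.Agent.T1.ModelFacts62.H0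
import Fermat.Agent.T1.ModelBC51.ModelEquiv

set_option autoImplicit false
set_option linter.unusedSectionVars false
set_option linter.style.haveILetI false

open TensorProduct

namespace Fermat.Agent.T1.ModelFacts62.Wired

open Fermat.Agent.RED.CORE.CoreIface24 Fermat.Agent.T1.ModelCoh30 Fermat.Agent.T1.PtLine75
  Fermat.Agent.T1.CoordInj23 Fermat.Agent.T1.ModelBC51.Abstract
  Fermat.Agent.T1.ModelBC51.ModelEquiv Fermat.Agent.T1.ModelFacts62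
open scoped Fermat.Agent.Jac.BaseChange75

universe u

variable {R K F : Type u} [CommRing R] [Field K] [Field F] [Algebra R K] [Algebra K F]
  [Algebra R F] [IsScalarTower R K F]
variable {R' L F' : Type u} [CommRing R'] [Field L] [Field F'] [Algebra R' L] [Algebra L F']
  [Algebra R' F'] [IsScalarTower R' L F']
variable {π : R} {π' : R'} {Ov : ValuationSubring F} {Ov' : ValuationSubring F'}
  (D : BCData K L π π' Ov Ov') [Algebra R R'] (halg : ∀ r : R, algebraMap R R' r = D.iR r)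
  {t : F} {B0 B1 : Subalgebra R F} {B0' B1' : Subalgebra R' F'}
  (hK : TwoChartModel R K F π t B0 B1 Ov)
  (hL : TwoChartModel R' L F' π' (D.iF t) B0' B1' Ov')
  [CharZero K]

include D halg hK hL

/-! ### (T1) -/

theorem isDomain0 : IsDomain (R' ⊗[R] ↥B0) := hub_isDomain B0' (equiv0 D halg hK hL)

theorem isDomain1 : IsDomain (R' ⊗[R] ↥B1) := hub_isDomain B1' (equiv1 D halg hK hL)

theorem isDomain01 : IsDomain (R' ⊗[R] ↥(B0 ⊔ B1)) :=
  hub_isDomain (B0' ⊔ B1') (equiv01 D halg hK hL)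

theorem isNoetherianRing0 : IsNoetherianRing (R' ⊗[R] ↥B0) :=
  hub_isNoetherianRing0 hL (equiv0 D halg hK hL)

theorem isNoetherianRing1 : IsNoetherianRing (R' ⊗[R] ↥B1) :=
  hub_isNoetherianRing1 hL (equiv1 D halg hK hL)

theorem flat0 : Module.Flat R' (R' ⊗[R] ↥B0) := hub_flat hL B0' (equiv0 D halg hK hL)

theorem flat1 : Module.Flat R' (R' ⊗[R] ↥B1) := hub_flat hL B1' (equiv1 D halg hK hL)

theorem flat01 : Module.Flat R' (R' ⊗[R] ↥(B0 ⊔ B1)) :=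
  hub_flat hL (B0' ⊔ B1') (equiv01 D halg hK hL)

/-! ### (T2) -/

theorem smooth0 :
    ∀ x : Ideal (R' ⊗[R] ↥B0), x.IsMaximal → algebraMap R' (R' ⊗[R] ↥B0) π' ∈ x →
      ∃ s ∈ x, ∀ y ∈ x, ∃ d : R' ⊗[R] ↥B0, d ∉ x ∧
        d * y ∈ Ideal.span {algebraMap R' (R' ⊗[R] ↥B0) π', s} :=
  hub_smooth0 hL (equiv0 D halg hK hL)

theorem smooth1 :
    ∀ x : Ideal (R' ⊗[R] ↥B1), x.IsMaximal → algebraMap R' (R' ⊗[R] ↥B1) π' ∈ x →
      ∃ s ∈ x, ∀ y ∈ x, ∃ d : R' ⊗[R] ↥B1, d ∉ x ∧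
        d * y ∈ Ideal.span {algebraMap R' (R' ⊗[R] ↥B1) π', s} :=
  hub_smooth1 hL (equiv1 D halg hK hL)

/-! ### (T3) and the packaged invertibility -/

/-- (T3) `1 ⊗ t - a ⊗ 1 ≠ 0` in `C_0` when `t` is not a constant of `L`. -/
theorem tmul_sub_ne_zero0 (ht' : ∀ a : L, algebraMap L F' a ≠ D.iF t) (a : R') :
    (1 : R') ⊗ₜ[R] (⟨t, hK.t_mem⟩ : ↥B0) - a ⊗ₜ[R] (1 : ↥B0) ≠ 0 :=
  hub_tmul_sub_ne_zero0 (equiv0 D halg hK hL) _ (coe_equiv0_t D halg hK hL) ht' a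

/-- (T3) `1 ⊗ t⁻¹ - a ⊗ 1 ≠ 0` in `C_1` when `t` is not a constant of `L`. -/
theorem tmul_sub_ne_zero1 (ht' : ∀ a : L, algebraMap L F' a ≠ D.iF t) (a : R') :
    (1 : R') ⊗ₜ[R] (⟨t⁻¹, hK.tinv_mem⟩ : ↥B1) - a ⊗ₜ[R] (1 : ↥B1) ≠ 0 :=
  hub_tmul_sub_ne_zero1 (equiv1 D halg hK hL) _ (coe_equiv1_tinv D halg hK hL) ht' a

/-- **The ideal of every `R'`-point of the hub chart `C_0` is an invertible module.** -/
theorem invertible_ptIdeal0 (ht' : ∀ a : L, algebraMap L F' a ≠ D.iF t) (q : ↥B0 →ₐ[R] R') :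
    Module.Invertible (R' ⊗[R] ↥B0) (ptIdeal q) :=
  hub_invertible_ptIdeal0 hL (equiv0 D halg hK hL) _ (coe_equiv0_t D halg hK hL) ht' q

/-- **The ideal of every `R'`-point of the hub chart `C_1` is an invertible module.** -/
theorem invertible_ptIdeal1 (ht' : ∀ a : L, algebraMap L F' a ≠ D.iF t) (q : ↥B1 →ₐ[R] R') :
    Module.Invertible (R' ⊗[R] ↥B1) (ptIdeal q) :=
  hub_invertible_ptIdeal1 hL (equiv1 D halg hK hL) _ (coe_equiv1_tinv D halg hK hL) ht' q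

/-! ### (T4)-(T6) -/

theorem pi_regular0 : ∀ x : R' ⊗[R] ↥B0, algebraMap R' (R' ⊗[R] ↥B0) π' * x = 0 → x = 0 :=
  hub_pi_regular hL B0' hL.le_Ov0 (equiv0 D halg hK hL)

theorem pi_regular1 : ∀ x : R' ⊗[R] ↥B1, algebraMap R' (R' ⊗[R] ↥B1) π' * x = 0 → x = 0 :=
  hub_pi_regular hL B1' hL.le_Ov1 (equiv1 D halg hK hL)

theorem pi_regular01 :
    ∀ x : R' ⊗[R] ↥(B0 ⊔ B1), algebraMap R' (R' ⊗[R] ↥(B0 ⊔ B1)) π' * x = 0 → x = 0 :=
  hub_pi_regular hL (B0' ⊔ B1') (sup_le_Ov hL) (equiv01 D halg hK hL)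

theorem prime_pi_hub0 : Prime (algebraMap R' (R' ⊗[R] ↥B0) π') :=
  hub_prime_pi0 hL (equiv0 D halg hK hL)

theorem prime_pi_hub1 : Prime (algebraMap R' (R' ⊗[R] ↥B1) π') :=
  hub_prime_pi1 hL (equiv1 D halg hK hL)

theorem prime_pi_hub01 : Prime (algebraMap R' (R' ⊗[R] ↥(B0 ⊔ B1)) π') :=
  hub_prime_pi01 hL (equiv01 D halg hK hL)

theorem pi_not_isUnit_hub01 : ¬ IsUnit (algebraMap R' (R' ⊗[R] ↥(B0 ⊔ B1)) π') :=
  hub_pi_not_isUnit01 hL (equiv01 D halg hK hL)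

/-! ### (T8) -/

/-- **(T8)** `H⁰(X_{R'}, O) = R'` for the hub, for any algebra structures `↥B_j → ↥(B0 ⊔ B1)` which
are the inclusions (e.g. `Coh60.algebra0/1`), when `L` is algebraically closed in `F'`. -/
theorem h0Const [Algebra ↥B0 ↥(B0 ⊔ B1)] [Algebra ↥B1 ↥(B0 ⊔ B1)]
    [IsScalarTower R ↥B0 ↥(B0 ⊔ B1)] [IsScalarTower R ↥B1 ↥(B0 ⊔ B1)]
    (h0 : ∀ x : ↥B0, ((algebraMap ↥B0 ↥(B0 ⊔ B1) x : ↥(B0 ⊔ B1)) : F) = x)
    (h1 : ∀ x : ↥B1, ((algebraMap ↥B1 ↥(B0 ⊔ B1) x : ↥(B0 ⊔ B1)) : F) = x)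
    (hKF : ∀ y : F', IsAlgebraic L y → ∃ c : L, algebraMap L F' c = y) :
    H0Const R' (R' ⊗[R] ↥B0) (R' ⊗[R] ↥B1) (R' ⊗[R] ↥(B0 ⊔ B1)) := by
  refine hub_h0Const hL hKF (B0' ⊔ B1') (equiv0 D halg hK hL) (equiv1 D halg hK hL)
    (equiv01 D halg hK hL) (fun x => ?_) (fun x => ?_)
  · induction x using TensorProduct.induction_on with
    | zero => simp only [map_zero, ZeroMemClass.coe_zero]
    | tmul r b =>
      rw [Fermat.Agent.Jac.BaseChange75.algebraMap_right_tmul, coe_equiv01_tmul,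
        coe_equiv0_tmul, h0]
    | add x y hx hy => simp only [map_add, Subalgebra.coe_add, hx, hy]
  · induction x using TensorProduct.induction_on with
    | zero => simp only [map_zero, ZeroMemClass.coe_zero]
    | tmul r b =>
      rw [Fermat.Agent.Jac.BaseChange75.algebraMap_right_tmul, coe_equiv01_tmul,
        coe_equiv1_tmul, h1]
    | add x y hx hy => simp only [map_add, Subalgebra.coe_add, hx, hy]

end Fermat.Agent.T1.ModelFacts62.Wired
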