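/-
T1A (S19), brick G0-X EXPORTS (helper62): the concrete inputs (i)-(iii) that the G1/G2/REDUCTION
bricks take as hypotheses, for a two-chart model whose valuation ring is a Gauss valuation ring
`GaussGen8.gaussVS hπ E hE` (`E ⊂ Frac O((q))`) and whose coordinate is the eta quotient
`t = tq Kt n e` (or any `t` with `O`-integral `q`-expansion having a unit coefficient in degree `≠ 0`).

* (iii) abstract: `htrans_of_resAlgClosed` : `ResAlgClosed π Ov` + "`t` is not congruent to a constant
  modulo `π`" ⇒ helper60's `htrans` (`t mod π` is transcendental over the residue field);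
* (iii) Gauss: `not_congr_const_of_coeff`, `htrans_gaussVS_of_coeff`, `htrans_gaussVS_tq`;
* (ii) `hKF_intermediate` : `Kt` is algebraically closed in every intermediate field of `Kt((q))`
  (the `hKF` shape of `ModelCoh30.h0` / `ModelFacts62.Wired.h0Const`);
* (i) `not_const_of_coeff`, `not_const_tq` : `t` is not a constant.
-/
import Mathlib
import Fermat.Agent.T1.ModelCoh30.GaussRes
import Fermat.Agent.RED.PUR.AlgClosedIn10
import Fermat.Agent.RED.BASE.EtaQuot12

set_option autoImplicit false
set_option linter.unusedSectionVars false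
set_option linter.style.haveILetI false

noncomputable section

namespace Fermat.Agent.T1.ModelFacts62.G0Exports

open Polynomial HahnSeries Fermat.Agent.RED.CORE.CoreIface24 Fermat.Agent.RED.PUR.GaussGen8
  Fermat.Agent.T1.ModelCoh30

/-! ### (iii), abstract form -/

section Abstract

variable {R K F : Type*} [CommRing R] [Field K] [Field F] [Algebra R K] [Algebra K F]
  [Algebra R F] [IsScalarTower R K F]
variable {π : R} {t : F} {B0 B1 : Subalgebra R F} {Ov : ValuationSubring F}

/-- **(iii), abstract.**  If the residue field of `R` is algebraically closed in that of `Ov` and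
`t` is not congruent to a constant modulo `π`, then `t mod π` is transcendental over `R/π`
(helper60's `htrans`, `Coh60.ModelLine`). -/
theorem htrans_of_resAlgClosed (M : TwoChartModel R K F π t B0 B1 Ov) (hκ : ResAlgClosed π Ov)
    (hnc : ∀ r : R, ¬ ∃ c ∈ Ov, t - algebraMap R F r = algebraMap R F π * c) :
    ∀ p : R[X], (∃ c ∈ Ov, aeval t p = algebraMap R F π * c) → (C π : R[X]) ∣ p := by
  intro p hp
  by_contra hdvd
  rw [C_dvd_iff_dvd_coeff] at hdvd
  push Not at hdvd
  obtain ⟨r, hr⟩ := hκ t (t_mem_Ov M) p hdvd hp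
  exact hnc r hr

end Abstract

/-! ### The Gauss valuation ring -/

section Gauss

variable {Kt : Type*} [Field Kt] {O : ValuationSubring Kt}
  {E : IntermediateField Kt (LaurentSeries Kt)}

/-- An element of `E` whose `q`-expansion has `O`-integral coefficients, one of which in degree
`n ≠ 0` is a unit, is not congruent to a constant modulo `π` in the Gauss valuation ring. -/
theorem not_congr_const_of_coeff {π : O} (hπ : IsUnif O π) (hE : E ≤ fracField O) (t : E)
    (a : LaurentSeries ↥O) (ha : (t : LaurentSeries Kt) = embK O a) (n : ℤ) (hn : n ≠ 0)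
    (hcoeff : res0 O (a.coeff n) ≠ 0) (r : O) :
    ¬ ∃ c ∈ gaussVS hπ E hE, t - algebraMap ↥O ↥E r = algebraMap ↥O ↥E π * c := by
  rintro ⟨c, hc, htc⟩
  have hcoe : ∀ b : O, ((algebraMap ↥O ↥E b : E) : LaurentSeries Kt) = HahnSeries.C ((b : O) : Kt) :=
    Fermat.Agent.RED.NumInst4.coe_algebraMap_OE O E
  have hc' : (c : LaurentSeries Kt) ∈ gaussRing O := (mem_gaussVS_iff hπ E hE c).mp hc
  -- the identity in the Gauss ring
  have h1 : (⟨embK O a, embK_mem O a⟩ : gaussRing O) - constG O r =
      constG O π * ⟨(c : LaurentSeries Kt), hc'⟩ := by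
    apply Subtype.ext
    show embK O a - HahnSeries.C ((r : O) : Kt) = HahnSeries.C ((π : O) : Kt) * (c : LaurentSeries Kt)
    rw [← ha, ← hcoe r, ← hcoe π]
    exact_mod_cast congrArg (fun x : E => (x : LaurentSeries Kt)) htc
  have h2 := congrArg (gaussRed O) h1
  rw [map_sub, map_mul, gaussRed_embK, gaussRed_constG, gaussRed_unif hπ, zero_mul,
    sub_eq_zero] at h2
  -- compare the coefficients in degree `n`
  have h3 : (redL O a).coeff n = (HahnSeries.C (res0 O r) : LaurentSeries (Res O)).coeff n := by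
    rw [h2]
  rw [redL, ModularCurve.coeffMap_coeff, HahnSeries.C_apply, HahnSeries.coeff_single_of_ne hn] at h3
  exact hcoeff h3

/-- **(iii) for Gauss valuation rings**, coefficient criterion. -/
theorem htrans_gaussVS_of_coeff {π : O} (hπ : IsUnif O π) (hE : E ≤ fracField O) {t : E}
    {B0 B1 : Subalgebra ↥O ↥E}
    (M : TwoChartModel ↥O Kt ↥E π t B0 B1 (gaussVS hπ E hE))
    (a : LaurentSeries ↥O) (ha : (t : LaurentSeries Kt) = embK O a) (n : ℤ) (hn : n ≠ 0)
    (hcoeff : res0 O (a.coeff n) ≠ 0) :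
    ∀ p : (↥O)[X], (∃ c ∈ gaussVS hπ E hE, aeval t p = algebraMap ↥O ↥E π * c) →
      (C π : (↥O)[X]) ∣ p :=
  htrans_of_resAlgClosed M (resAlgClosed_gaussVS hπ hE M)
    (not_congr_const_of_coeff hπ hE t a ha n hn hcoeff)

/-- **(iii) for the eta quotient** `t = tq Kt n e = q⁻¹ (η(q)/η(qⁿ))^e`. -/
theorem htrans_gaussVS_tq {π : O} (hπ : IsUnif O π) (hE : E ≤ fracField O) {t : E}
    {B0 B1 : Subalgebra ↥O ↥E}
    (M : TwoChartModel ↥O Kt ↥E π t B0 B1 (gaussVS hπ E hE))
    (n e : ℕ) [NeZero n] (ht : (t : LaurentSeries Kt) = Fermat.Agent.RED.BASE.EtaQuot12.tq Kt n e) :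
    ∀ p : (↥O)[X], (∃ c ∈ gaussVS hπ E hE, aeval t p = algebraMap ↥O ↥E π * c) →
      (C π : (↥O)[X]) ∣ p := by
  refine htrans_gaussVS_of_coeff hπ hE M (Fermat.Agent.RED.BASE.EtaQuot12.tq ↥O n e) ?_ (-1) (by norm_num) ?_
  · rw [ht, embK, Fermat.Agent.RED.BASE.EtaQuot12.coeffMap_tq]
  · rw [Fermat.Agent.RED.BASE.EtaQuot12.coeff_tq_neg_one, map_one]
    exact one_ne_zero

/-! ### (ii) and (i) -/

/-- **(ii)** `Kt` is algebraically closed in every intermediate field of `Kt((q))`, in the `hKF`
shape of `ModelCoh30.h0` and `ModelFacts62.Wired.h0Const`. -/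
theorem hKF_intermediate (E : IntermediateField Kt (LaurentSeries Kt)) :
    ∀ y : ↥E, IsAlgebraic Kt y → ∃ c : Kt, algebraMap Kt ↥E c = y := by
  intro y hy
  obtain ⟨c, hc⟩ := Fermat.Agent.RED.PUR.GaussBridge10.exists_algebraMap_eq_of_isAlgebraic E hy
  exact ⟨c, hc.symm⟩

/-- **(i)** an element of `E` with a nonzero coefficient in degree `n ≠ 0` is not a constant. -/
theorem not_const_of_coeff (t : E) (n : ℤ) (hn : n ≠ 0)
    (hcoeff : (t : LaurentSeries Kt).coeff n ≠ 0) (c : Kt) : algebraMap Kt ↥E c ≠ t := by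
  intro h
  apply hcoeff
  have h1 : (t : LaurentSeries Kt) = HahnSeries.C c := by
    rw [← h]
    show algebraMap Kt (LaurentSeries Kt) c = _
    exact algebraMap_eq_C c
  rw [h1, HahnSeries.C_apply, HahnSeries.coeff_single_of_ne hn]

/-- **(i)** the eta quotient `tq Kt n e` is not a constant. -/
theorem not_const_tq (t : E) (n e : ℕ) [NeZero n]
    (ht : (t : LaurentSeries Kt) = Fermat.Agent.RED.BASE.EtaQuot12.tq Kt n e) (c : Kt) :
    algebraMap Kt ↥E c ≠ t := by
  refine not_const_of_coeff t (-1) (by norm_num) ?_ c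
  rw [ht, Fermat.Agent.RED.BASE.EtaQuot12.coeff_tq_neg_one]
  exact one_ne_zero

end Gauss

end Fermat.Agent.T1.ModelFacts62.G0Exports
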