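/-
T1A (S19), brick G0-X EXPORTS, WIRING (helper62): the exports (i) `ht`, (ii) `hKF`, (iii) `htrans`,
`ResAlgClosed` and `FiniteProjOverLine` for helper4's ACTUAL G0 model
`ModelUnr4.Explicit.ExplicitModel (AK A K) (FK M K) ϖ _ _ ⟨tq K n e, _⟩`
(`explicitModel_of_zeta_gen`, `explicitModel_four`, `explicitModel_nine`), for every number field
`K ∋ ζ_M`.

* generic (`section Generic`): for an `ExplicitModel O E π hu hE t` whose coordinate has
  `q`-expansion `tq K n e`: `htrans`, `resAlgClosed`, `hKF`, `ht`, `ht0`, `finiteProjOverLine`;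
* concrete (`section Concrete`): the same for `explicitModel_four` / `explicitModel_nine` (no
  hypothesis left), packaged as `G0Exports` structures `exports_four`, `exports_nine`,
  `exports_of_zeta_gen`.
-/
import Mathlib
import Fermat.Agent.T1.ModelUnr4.Explicit
import Fermat.Agent.T1.Coh60.ModelTrans
import Fermat.Agent.T1.ModelFacts62.G0Exports

set_option autoImplicit false
set_option linter.unusedSectionVars false
set_option linter.unusedVariables false
set_option linter.style.haveILetI false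

noncomputable section

namespace Fermat.Agent.T1.ModelFacts62.G0Wired

open Polynomial HahnSeries IntermediateField
open Fermat.Agent.RED.CORE.CoreIface24 Fermat.Agent.RED.PUR.GaussGen8
  Fermat.Agent.RED.PUR.ChartGeneric22 Fermat.Agent.T1.ModelCoh30
  Fermat.Agent.T1.ModelUnr4.Explicit Fermat.Agent.RED.BASE.EtaQuot12
  Fermat.Agent.T1.Coh60

section Generic

variable {K : Type*} [Field K] [CharZero K] {O : ValuationSubring K}
  {E : IntermediateField K (LaurentSeries K)}

/-- **The full list of exports of the G0 model** that the G1/G2/REDUCTION bricks take as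
hypotheses: the `TwoChartModel` itself with explicit charts, and (i) `ht`, (ii) `hKF`,
(iii) `htrans`, `resAlgClosed`, (iv) `fin0`/`fin1`, `transc`, `finite`, `finiteProj`. -/
structure G0Exports (O : ValuationSubring K) (E : IntermediateField K (LaurentSeries K))
    (π : ↥O) (hu : IsUnif O π) (hE : E ≤ fracField O) (t : ↥E) : Prop where
  /-- the model -/
  model : TwoChartModel ↥O K ↥E π t (chart ↥O t) (chart ↥O t⁻¹) (gaussVS hu E hE)
  /-- `t` is transcendental over `K` -/
  transc : Transcendental K t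
  /-- `E / K(t)` is finite -/
  finite : FiniteDimensional ↥(IntermediateField.adjoin K {t}) ↥E
  /-- (iv) the first chart is finite over `O[t]` -/
  fin0 : ∃ (r : ℕ) (b : Fin r → ↥E), (∀ i, b i ∈ chart ↥O t) ∧
      ∀ x ∈ chart ↥O t, ∃ P : Fin r → (↥O)[X], x = ∑ i, aeval t (P i) * b i
  /-- (iv) the second chart is finite over `O[t⁻¹]` -/
  fin1 : ∃ (r : ℕ) (b : Fin r → ↥E), (∀ i, b i ∈ chart ↥O t⁻¹) ∧
      ∀ x ∈ chart ↥O t⁻¹, ∃ P : Fin r → (↥O)[X], x = ∑ i, aeval t⁻¹ (P i) * b i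
  /-- (iii) `t mod π` is transcendental over the residue field (helper60's `htrans`) -/
  htrans : ∀ p : (↥O)[X], (∃ c ∈ gaussVS hu E hE, aeval t p = algebraMap ↥O ↥E π * c) →
      (C π : (↥O)[X]) ∣ p
  /-- the residue field of `O` is algebraically closed in that of `Ov` (helper30) -/
  resAlgClosed : ResAlgClosed π (gaussVS hu E hE)
  /-- (ii) `K` is algebraically closed in `E` -/
  hKF : ∀ y : ↥E, IsAlgebraic K y → ∃ c : K, algebraMap K ↥E c = y
  /-- (i) `t` is not a constant -/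
  ht : ∀ c : K, algebraMap K ↥E c ≠ t

/-- (iii) `htrans` for an explicit model with coordinate `tq`. -/
theorem htrans {π : ↥O} {hu : IsUnif O π} {hE : E ≤ fracField O} {t : ↥E}
    (X : ExplicitModel O E π hu hE t) (n e : ℕ) [NeZero n]
    (ht : (t : LaurentSeries K) = tq K n e) :
    ∀ p : (↥O)[X], (∃ c ∈ gaussVS hu E hE, aeval t p = algebraMap ↥O ↥E π * c) →
      (C π : (↥O)[X]) ∣ p :=
  Fermat.Agent.T1.ModelFacts62.G0Exports.htrans_gaussVS_tq hu hE X.model n e ht

/-- `ResAlgClosed` for an explicit model. -/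
theorem resAlgClosed {π : ↥O} {hu : IsUnif O π} {hE : E ≤ fracField O} {t : ↥E}
    (X : ExplicitModel O E π hu hE t) : ResAlgClosed π (gaussVS hu E hE) :=
  resAlgClosed_gaussVS hu hE X.model

/-- (i) `ht`: the coordinate `tq` is not a constant. -/
theorem ht_of_tq {t : ↥E} (n e : ℕ) [NeZero n] (ht : (t : LaurentSeries K) = tq K n e) (c : K) :
    algebraMap K ↥E c ≠ t :=
  Fermat.Agent.T1.ModelFacts62.G0Exports.not_const_tq t n e ht c

/-- (i) without the `q`-expansion: a transcendental element is not a constant. -/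
theorem ht_of_transc {π : ↥O} {hu : IsUnif O π} {hE : E ≤ fracField O} {t : ↥E}
    (X : ExplicitModel O E π hu hE t) (c : K) : algebraMap K ↥E c ≠ t := by
  intro h
  exact X.transc (h ▸ isAlgebraic_algebraMap c)

/-- **All exports** for an explicit model with coordinate `tq`. -/
theorem exports_of_explicit {π : ↥O} {hu : IsUnif O π} {hE : E ≤ fracField O} {t : ↥E}
    (X : ExplicitModel O E π hu hE t) (n e : ℕ) [NeZero n]
    (ht : (t : LaurentSeries K) = tq K n e) : G0Exports O E π hu hE t where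
  model := X.model
  transc := X.transc
  finite := X.finite
  fin0 := X.fin0
  fin1 := X.fin1
  htrans := htrans X n e ht
  resAlgClosed := resAlgClosed X
  hKF := Fermat.Agent.T1.ModelFacts62.G0Exports.hKF_intermediate E
  ht := ht_of_transc X

/-- `FiniteProjOverLine` for the canonical two-chart ring of the model (helper60's (e)). -/
theorem G0Exports.finiteProjOverLine {π : ↥O} {hu : IsUnif O π} {hE : E ≤ fracField O} {t : ↥E}
    (X : G0Exports O E π hu hE t) :
    @Fermat.Agent.Jac.TwoChart.FiniteProjOverLine ↥O ↥(chart ↥O t) ↥(chart ↥O t⁻¹)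
      ↥(chart ↥O t ⊔ chart ↥O t⁻¹) _ _ _ _ _ _ _
      (algebra0 (chart ↥O t) (chart ↥O t⁻¹)) (algebra1 (chart ↥O t) (chart ↥O t⁻¹))
      (isScalarTower0 (chart ↥O t) (chart ↥O t⁻¹)) (isScalarTower1 (chart ↥O t) (chart ↥O t⁻¹))
      (modelChart X.model) :=
  modelChart_finiteProjOverLine X.model X.htrans X.fin1

end Generic

section Concrete

open Fermat.Agent.X0
open Fermat.Agent.RED.Interface4 Fermat.Agent.RED.InterfaceGe4
  Fermat.Agent.RED.ModelTargets4
  Fermat.Agent.RED.NumMain4 Fermat.Agent.RED.DESC.NumberFieldDVR27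
  Fermat.Agent.RED.BASE.Interface12 Fermat.Agent.RED.BASE.Hauptmodul12
  Fermat.Agent.RED.BASE.MainCusp12
open Fermat.Agent.RED.BASE
open scoped MatrixGroups

variable {n e : ℕ} [NeZero n] {M : ℕ} [NeZero M] {A : ValuationSubring Qbar}

/-- **All G0 exports over `K ∋ ζ_M`**, general `(n, e)`. -/
theorem exports_of_zeta_gen (hb : BaseHyp n e) (hnM : n ∣ M) {ℓ : ℕ} [Fact ℓ.Prime]
    (hℓM : ¬ ℓ ∣ M) (hA : A.LiesOverPrime ℓ) (cv : SL(2, ℤ) → Option Kbar)
    (hcv : MainCusp12.CuspExports n e M cv) (K : IntermediateField ℚ Qbar)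
    [FiniteDimensional ℚ K] (hζ : zetaK M ∈ K)
    (htE : tq K n e ∈ FK M K) (hE : FK M K ≤ fracField (AK A K))
    (ϖ : ↥(AK A K)) (hϖ : Irreducible ϖ) (hu : IsUnif (AK A K) ϖ) :
    G0Exports (AK A K) (FK M K) ϖ hu hE ⟨tq K n e, htE⟩ :=
  exports_of_explicit
    (explicitModel_of_zeta_gen hb hnM hℓM hA cv hcv K hζ htE hE ϖ hϖ hu) n e rfl

/-- **All G0 exports, `ℓ` odd**: `4 ∣ M`, `ℓ ∤ M`, `t = tq K 4 8`. -/
theorem exports_four (hd : 4 ∣ M) {ℓ : ℕ} [Fact ℓ.Prime] (hℓM : ¬ ℓ ∣ M)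
    (hA : A.LiesOverPrime ℓ) (K : IntermediateField ℚ Qbar) [FiniteDimensional ℚ K]
    (hζ : zetaK M ∈ K) (ϖ : ↥(AK A K)) (hϖ : Irreducible ϖ) :
    G0Exports (AK A K) (FK M K) ϖ (isUnif_AK hA K hϖ) (FK_le_fracField_AK A K M)
      ⟨tq K 4 8, tq_mem_FK_of_baseHyp baseHyp_four hd K⟩ :=
  exports_of_explicit (explicitModel_four hd hℓM hA K hζ ϖ hϖ) 4 8 rfl

/-- **All G0 exports, `ℓ = 2`** (or any `ℓ ≠ 3`): `9 ∣ M`, `ℓ ∤ M`, `t = tq K 9 3`. -/
theorem exports_nine (hd : 9 ∣ M) {ℓ : ℕ} [Fact ℓ.Prime] (hℓM : ¬ ℓ ∣ M)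
    (hA : A.LiesOverPrime ℓ) (K : IntermediateField ℚ Qbar) [FiniteDimensional ℚ K]
    (hζ : zetaK M ∈ K) (ϖ : ↥(AK A K)) (hϖ : Irreducible ϖ) :
    G0Exports (AK A K) (FK M K) ϖ (isUnif_AK hA K hϖ) (FK_le_fracField_AK A K M)
      ⟨tq K 9 3, tq_mem_FK_of_baseHyp baseHyp_nine hd K⟩ :=
  exports_of_explicit (explicitModel_nine hd hℓM hA K hζ ϖ hϖ) 9 3 rfl

end Concrete

end Fermat.Agent.T1.ModelFacts62.G0Wired
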