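/-
T1A (S19), brick G0-X EXPORTS, HUB WIRING (helper62): the inputs (A) `HubRed76.ModelHyp` and
(C) `HubRed76.HubFacts` of helper76's `HubRed76.hubRed`, for the explicit G0 model
(`ModelUnr4.Explicit.ExplicitModel`, coordinate `tq`), from `ModelFacts62.G0Wired.G0Exports`
and helper51's `ModelBC51.Concrete` base change data.

* `modelHyp_of_exports` : (A) for any `G0Exports`;
* `iF_tq`, `ht'_of_tq`  : the coordinate over `L` is `Φ(t)`, and is not a constant of `L`;
* `hubFacts_of_exports` : (C) for `O' ⊂ L` from a `BCData` whose `iF` is the coefficientwise map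
  (`Concrete.nonempty_bcData` gives such data) and an explicit model over `L` with coordinate `tq`.
-/
import Mathlib
import Fermat.Agent.T1.HubRed76
import Fermat.Agent.T1.ModelFacts62.G0Wired
import Fermat.Agent.T1.ModelBC51.Concrete

set_option autoImplicit false
set_option linter.unusedSectionVars false
set_option linter.unusedVariables false
set_option linter.style.haveILetI false

noncomputable section

namespace Fermat.Agent.T1.ModelFacts62.G0Hub

open Polynomial HahnSeries IntermediateField ModularCurve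
open Fermat.Agent.RED.CORE.CoreIface24 Fermat.Agent.RED.PUR.GaussGen8
  Fermat.Agent.RED.PUR.ChartGeneric22 Fermat.Agent.T1.ModelCoh30
  Fermat.Agent.T1.ModelUnr4.Explicit Fermat.Agent.RED.BASE.EtaQuot12
  Fermat.Agent.T1.Coh60 Fermat.Agent.T1.ModelFacts62.G0Wired
  Fermat.Agent.T1.HubRed76 Fermat.Agent.T1.ModelBC51.Abstract

universe u

attribute [local instance] Coh60.algebra0 Coh60.algebra1 Coh60.isScalarTower0
  Coh60.isScalarTower1

section A

variable {K : Type u} [Field K] [CharZero K] {O : ValuationSubring K}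
  {E : IntermediateField K (LaurentSeries K)}

/-- **(A)** helper76's `ModelHyp` for the explicit G0 model. -/
theorem modelHyp_of_exports {π : ↥O} {hu : IsUnif O π} {hE : E ≤ fracField O} {t : ↥E}
    (X : G0Exports O E π hu hE t) :
    ModelHyp K π t (chart ↥O t⁻¹) (gaussVS hu E hE) :=
  ⟨X.htrans, X.fin1, X.hKF, X.resAlgClosed⟩

end A

section C

variable {K L : Type u} [Field K] [CharZero K] [Field L] [CharZero L] (φ : K →+* L)
  {O : ValuationSubring K} {O' : ValuationSubring L}
  {π : ↥O} {π' : ↥O'} {hπ : IsUnif O π} {hπ' : IsUnif O' π'}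
  {E : IntermediateField K (LaurentSeries K)} {E' : IntermediateField L (LaurentSeries L)}
  {hE : E ≤ fracField O} {hE' : E' ≤ fracField O'}
  (hEE' : ∀ x ∈ E, coeffMap φ x ∈ E')

/-- the coefficientwise map sends the coordinate `tq K n e` to `tq L n e`. -/
theorem iF_tq (n e : ℕ) [NeZero n] {t : ↥E} (ht : (t : LaurentSeries K) = tq K n e)
    {t' : ↥E'} (ht' : (t' : LaurentSeries L) = tq L n e) :
    Fermat.Agent.T1.ModelBC51.Concrete.iF φ hEE' t = t' := by
  apply Subtype.ext
  rw [Fermat.Agent.T1.ModelBC51.Concrete.coe_iF, ht, ht', coeffMap_tq]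

/-- **(C)** helper76's `HubFacts` at `O' ⊂ L` for the explicit G0 models over `K` and `L` with
coordinates `tq K n e`, `tq L n e`, from base change data whose `iF` is the coefficientwise map. -/
theorem hubFacts_of_exports (n e : ℕ) [NeZero n] {t : ↥E} (ht : (t : LaurentSeries K) = tq K n e)
    {t' : ↥E'} (ht' : (t' : LaurentSeries L) = tq L n e)
    (X : G0Exports O E π hπ hE t) (X' : G0Exports O' E' π' hπ' hE' t')
    (D : BCData K L π π' (gaussVS hπ E hE) (gaussVS hπ' E' hE'))
    (hiF : D.iF = Fermat.Agent.T1.ModelBC51.Concrete.iF φ hEE')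
    [Algebra ↥O ↥O'] (halg : ∀ r : ↥O, algebraMap ↥O ↥O' r = D.iR r) :
    HubFacts (mc X.model :) ↥O' := by
  have hcoord : D.iF t = t' := by
    rw [hiF]
    exact iF_tq φ hEE' n e ht ht'
  have hL : TwoChartModel ↥O' L ↥E' π' (D.iF t) (chart ↥O' t') (chart ↥O' t'⁻¹)
      (gaussVS hπ' E' hE') := by
    rw [hcoord]
    exact X'.model
  refine hubFacts_of_bcData X.model D halg hL ?_
  rw [hcoord]
  exact X'.ht

end C

end Fermat.Agent.T1.ModelFacts62.G0Hub
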