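/-
T1A (S19), CONCRETE HUB (helper62): helper76's inputs (A) `ModelHyp` and (C) `HubFacts` for
helper41's concrete hub `Assembly41.Concrete.c0 F`, `F : ModelFamily ℓ M n e` arbitrary.

* `exportsK F K hζ`  : all G0 exports (`G0Wired.G0Exports`) of the model over `K ∋ ζ_M`;
* `modelHyp_K F K hζ`: `HubRed76.ModelHyp` over `K`;
* `hubFacts_concrete F L hle` : `HubRed76.HubFacts (c0 F :) (OL ℓ L)` for every number field
  `L ⊇ K₁ = ℚ(ζ_M)` (algebra structure `HubInst98.algAK (padicPlace ℓ) hle`), from helper51's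
  `NumFieldGlue.nonempty_bcData_AK` and `G0Hub.hubFacts_of_exports`.
-/
import Mathlib
import Fermat.Agent.T1.Assembly41.ConcreteHub
import Fermat.Agent.T1.Assembly41.FastInst
import Fermat.Agent.T1.ModelBC51.NumFieldGlue
import Fermat.Agent.T1.ModelFacts62.G0Hub

set_option autoImplicit false
set_option linter.unusedSectionVars false
set_option linter.unusedVariables false
set_option linter.style.haveILetI false

noncomputable section

namespace Fermat.Agent.T1.ModelFacts62.HubFactsConcrete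

open Fermat.Agent Fermat.Agent.Jac Fermat.Agent.T1.HubInst98
open Fermat.Agent.RED.Interface4 Fermat.Agent.RED.CORE.CoreIface24
open Fermat.Agent.RED.PUR.GaussGen8 Fermat.Agent.RED.PUR.ChartGeneric22
open Fermat.Agent.RED.BASE.EtaQuot12
open Fermat.Agent.T1.ModelUnr4.Explicit Fermat.Agent.T1.Coh60
open Fermat.Agent.X0
open Fermat.Agent.T1.Assembly41 Fermat.Agent.T1.Assembly41.Concrete
open Fermat.Agent.T1.ModelFacts62.G0Wired Fermat.Agent.T1.ModelFacts62.G0Hub
open Fermat.Agent.T1.HubRed76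
open scoped Fermat.Agent.T1.Assembly41.FastInst

attribute [local instance] Coh60.algebra0 Coh60.algebra1 Coh60.isScalarTower0
  Coh60.isScalarTower1

variable {ℓ : ℕ} [Fact ℓ.Prime] {M : ℕ} [NeZero M] {n e : ℕ} [NeZero n]

/-- All G0 exports of the model over `K ∋ ζ_M`. -/
theorem exportsK (F : ModelFamily ℓ M n e) (K : IntermediateField ℚ Qbar) [FiniteDimensional ℚ K]
    (hζ : zetaK M ∈ K) :
    G0Exports (AK (padicPlace ℓ) K) (FK M K) (unif ℓ K)
      (isUnif_AK (hA ℓ) K (unif_irreducible ℓ K)) (FK_le_fracField_AK (padicPlace ℓ) K M)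
      (tK F K) :=
  exports_of_explicit (explicitK F K hζ) n e rfl

/-- **(A)** `HubRed76.ModelHyp` for the model over `K ∋ ζ_M`. -/
theorem modelHyp_K (F : ModelFamily ℓ M n e) (K : IntermediateField ℚ Qbar)
    [FiniteDimensional ℚ K] (hζ : zetaK M ∈ K) :
    ModelHyp ↥K (unif ℓ K) (tK F K) (B1K F K)
      (gaussVS (isUnif_AK (hA ℓ) K (unif_irreducible ℓ K)) (FK M K)
        (FK_le_fracField_AK (padicPlace ℓ) K M)) :=
  modelHyp_of_exports (exportsK F K hζ)

/-- **(C)** `HubRed76.HubFacts` for the concrete hub at every `O_L`, `L ⊇ ℚ(ζ_M)` a number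
field. -/
theorem hubFacts_concrete (F : ModelFamily ℓ M n e) (L : IntermediateField ℚ Qbar)
    [FiniteDimensional ℚ L] (hle : K1 M ≤ L) :
    letI := algAK (padicPlace ℓ) hle
    HubFacts (c0 F :) (OL ℓ L) := by
  letI := algAK (padicPlace ℓ) hle
  have hζL : zetaK M ∈ L := hle (zetaK_mem_K1 M)
  obtain ⟨hOO', hEE', D, hR, hK, hF, hincl, -⟩ :=
    Fermat.Agent.T1.ModelBC51.NumFieldGlue.nonempty_bcData_AK (padicPlace ℓ) hle
      (Fact.out : ℓ.Prime).ne_zero (hA ℓ) M
      (isUnif_AK (hA ℓ) (K1 M) (unif_irreducible ℓ (K1 M)))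
      (isUnif_AK (hA ℓ) L (unif_irreducible ℓ L))
  exact hubFacts_of_exports (IntermediateField.inclusion hle : ↥(K1 M) →+* ↥L) hEE' n e rfl rfl
    (exportsK F (K1 M) (zetaK_mem_K1 M)) (exportsK F L hζL) D hF (fun r => hincl r)

end Fermat.Agent.T1.ModelFacts62.HubFactsConcrete
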