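/-
T1A (S19), brick G2-X MODEL-FACTS (helper62), file 1: chart-level facts of a
`RED.CORE.CoreIface24.TwoChartModel R K F π t B0 B1 Ov` consumed by the REDUCTION layer.

For a subalgebra `B` of `F` contained in `Ov` and `π`-saturated in `Ov` (`B0`, `B1`, `B0 ⊔ B1`):

* `pi_not_isUnit_sub`, `prime_pi_sub`, `span_pi_isPrime_sub` : `π` is a prime element of `↥B`
  (the special fibre `B / π` is integral: `B / π ↪ Ov / π Ov`, a field);
* `pi_regular_sub` : `π` is a nonzerodivisor of `↥B`;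
* `prime_pi0`, `prime_pi1`, `prime_pi01`, ...: the three charts;
* `tSub_sub_algebraMap_ne_zero` : `t - a ≠ 0` in `↥B0` for constants `a` (when `t` is not a constant);
* `isIntegral_adjoin_tSub0/1` : (INT_j) every element of `↥B0` is integral over `R[t] ⊆ ↥B0`
  (`int0`, `int1` restated on the subtypes).
-/
import Mathlib
import Fermat.Agent.RED.CORE.CoreIface24
import Fermat.Agent.T1.ModelCoh30.Basic

set_option autoImplicit false
set_option linter.unusedSectionVars false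
set_option linter.style.haveILetI false

namespace Fermat.Agent.T1.ModelFacts62

open Polynomial Fermat.Agent.RED.CORE.CoreIface24 Fermat.Agent.T1.ModelCoh30

variable {R K F : Type*} [CommRing R] [Field K] [Field F] [Algebra R K] [Algebra K F]
  [Algebra R F] [IsScalarTower R K F]
variable {π : R} {t : F} {B0 B1 : Subalgebra R F} {Ov : ValuationSubring F}

/-! ### `π` is prime in a saturated chart -/

section Sat

variable (M : TwoChartModel R K F π t B0 B1 Ov) (B : Subalgebra R F)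
  (hle : ∀ x ∈ B, x ∈ Ov)
  (hsat : ∀ b ∈ B, ∀ c ∈ Ov, b = algebraMap R F π * c → c ∈ B)

include M in
/-- an element of `Ov` which is not in `π Ov` is a unit of `Ov`. -/
theorem inv_mem_Ov_of_not_dvd {x : F} (hx : x ∈ Ov)
    (h : ¬ ∃ c ∈ Ov, x = algebraMap R F π * c) : x⁻¹ ∈ Ov := by
  by_contra hinv
  exact h (M.unif x hx hinv)

include M hle in
theorem pi_sub_ne_zero : algebraMap R ↥B π ≠ 0 := fun h =>
  M.pi_ne (congrArg (fun x : ↥B => (x : F)) h)

include M hle in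
/-- `π` is not a unit of a chart contained in `Ov`. -/
theorem pi_not_isUnit_sub : ¬ IsUnit (algebraMap R ↥B π) := by
  rintro ⟨u, hu⟩
  apply M.pi_nonunit
  have h1 : ((u : ↥B) : F) = algebraMap R F π := congrArg (fun x : ↥B => (x : F)) hu
  have h2 : algebraMap R F π * (((u⁻¹ : (↥B)ˣ) : ↥B) : F) = 1 := by
    rw [← h1]
    exact congrArg (fun x : ↥B => (x : F)) (Units.mul_inv u)
  rw [inv_eq_of_mul_eq_one_right h2]
  exact hle _ (((u⁻¹ : (↥B)ˣ) : ↥B)).2

include M hle hsat in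
/-- divisibility by `π` in a saturated chart is divisibility in `Ov`. -/
theorem pi_dvd_sub_iff (x : ↥B) :
    algebraMap R ↥B π ∣ x ↔ ∃ c ∈ Ov, (x : F) = algebraMap R F π * c := by
  constructor
  · rintro ⟨y, rfl⟩
    exact ⟨(y : F), hle _ y.2, rfl⟩
  · rintro ⟨c, hc, hxc⟩
    exact ⟨⟨c, hsat _ x.2 c hc hxc⟩, Subtype.ext hxc⟩

include M hle hsat in
/-- **`π` is a prime element of a saturated chart**: the special fibre `B / π` is integral. -/
theorem prime_pi_sub : Prime (algebraMap R ↥B π) := by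
  refine ⟨pi_sub_ne_zero M B hle, pi_not_isUnit_sub M B hle, fun a b hab => ?_⟩
  rw [pi_dvd_sub_iff M B hle hsat] at hab ⊢
  rw [pi_dvd_sub_iff M B hle hsat]
  by_contra hcon
  rw [not_or] at hcon
  obtain ⟨ha, hb⟩ := hcon
  have ha' := inv_mem_Ov_of_not_dvd M (hle _ a.2) ha
  have hb' := inv_mem_Ov_of_not_dvd M (hle _ b.2) hb
  obtain ⟨c, hc, habc⟩ := hab
  have hab0 : ((a * b : ↥B) : F) ≠ 0 := by
    intro h0
    rw [Subalgebra.coe_mul] at h0
    rcases mul_eq_zero.1 h0 with h | h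
    · exact ha ⟨0, Ov.zero_mem, by rw [h, mul_zero]⟩
    · exact hb ⟨0, Ov.zero_mem, by rw [h, mul_zero]⟩
  -- `π⁻¹ = c (ab)⁻¹ ∈ Ov`
  apply M.pi_nonunit
  have h1 : (algebraMap R F π)⁻¹ = c * ((a : F)⁻¹ * (b : F)⁻¹) := by
    rw [Subalgebra.coe_mul] at habc hab0
    have hc0 : c ≠ 0 := by
      rintro rfl
      exact hab0 (by rw [habc, mul_zero])
    rw [← mul_inv, habc, mul_inv, mul_left_comm, mul_inv_cancel₀ hc0, mul_one]
  rw [h1]
  exact Ov.mul_mem _ _ hc (Ov.mul_mem _ _ ha' hb')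

include M hle hsat in
theorem span_pi_isPrime_sub : (Ideal.span {algebraMap R ↥B π} : Ideal ↥B).IsPrime :=
  (Ideal.span_singleton_prime (pi_sub_ne_zero M B hle)).2 (prime_pi_sub M B hle hsat)

include M hle in
/-- `π` is a nonzerodivisor of a chart. -/
theorem pi_regular_sub (x : ↥B) (h : algebraMap R ↥B π * x = 0) : x = 0 :=
  (mul_eq_zero.1 h).resolve_left (pi_sub_ne_zero M B hle)

end Sat

/-! ### The three charts -/

section Charts

variable (M : TwoChartModel R K F π t B0 B1 Ov)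

include M

theorem prime_pi0 : Prime (algebraMap R ↥B0 π) := prime_pi_sub M B0 M.le_Ov0 M.sat0

theorem prime_pi1 : Prime (algebraMap R ↥B1 π) := prime_pi_sub M B1 M.le_Ov1 M.sat1

theorem prime_pi01 : Prime (algebraMap R ↥(B0 ⊔ B1) π) :=
  prime_pi_sub M (B0 ⊔ B1) (sup_le_Ov M) (sat01 M)

theorem span_pi_isPrime0 : (Ideal.span {algebraMap R ↥B0 π} : Ideal ↥B0).IsPrime :=
  span_pi_isPrime_sub M B0 M.le_Ov0 M.sat0

theorem span_pi_isPrime1 : (Ideal.span {algebraMap R ↥B1 π} : Ideal ↥B1).IsPrime :=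
  span_pi_isPrime_sub M B1 M.le_Ov1 M.sat1

theorem span_pi_isPrime01 : (Ideal.span {algebraMap R ↥(B0 ⊔ B1) π} : Ideal ↥(B0 ⊔ B1)).IsPrime :=
  span_pi_isPrime_sub M (B0 ⊔ B1) (sup_le_Ov M) (sat01 M)

theorem pi_not_isUnit0 : ¬ IsUnit (algebraMap R ↥B0 π) := pi_not_isUnit_sub M B0 M.le_Ov0

theorem pi_not_isUnit1 : ¬ IsUnit (algebraMap R ↥B1 π) := pi_not_isUnit_sub M B1 M.le_Ov1

theorem pi_not_isUnit01 : ¬ IsUnit (algebraMap R ↥(B0 ⊔ B1) π) :=
  pi_not_isUnit_sub M (B0 ⊔ B1) (sup_le_Ov M)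

/-- the quotient of a chart by `π` is a domain. -/
theorem isDomain_quot_pi0 : IsDomain (↥B0 ⧸ (Ideal.span {algebraMap R ↥B0 π} : Ideal ↥B0)) :=
  haveI := span_pi_isPrime0 M
  Ideal.Quotient.isDomain _

theorem isDomain_quot_pi1 : IsDomain (↥B1 ⧸ (Ideal.span {algebraMap R ↥B1 π} : Ideal ↥B1)) :=
  haveI := span_pi_isPrime1 M
  Ideal.Quotient.isDomain _

/-- The coordinate `t` as an element of the chart `B0`. -/
def tSub0 : ↥B0 := ⟨t, M.t_mem⟩

/-- The coordinate `t⁻¹` as an element of the chart `B1`. -/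
def tSub1 : ↥B1 := ⟨t⁻¹, M.tinv_mem⟩

@[simp] theorem coe_tSub0 : ((tSub0 M : ↥B0) : F) = t := rfl

@[simp] theorem coe_tSub1 : ((tSub1 M : ↥B1) : F) = t⁻¹ := rfl

/-- `t - a ≠ 0` in `B0` for constants `a ∈ R`, when `t` is not a constant. -/
theorem tSub0_sub_algebraMap_ne_zero (ht : ∀ a : K, algebraMap K F a ≠ t) (a : R) :
    tSub0 M - algebraMap R ↥B0 a ≠ 0 := by
  intro h
  have h1 : t - algebraMap R F a = 0 := congrArg (fun x : ↥B0 => (x : F)) h
  apply ht (algebraMap R K a)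
  rw [← IsScalarTower.algebraMap_apply R K F]
  exact (sub_eq_zero.1 h1).symm

/-- `t⁻¹ - a ≠ 0` in `B1` for constants `a ∈ R`, when `t` is not a constant. -/
theorem tSub1_sub_algebraMap_ne_zero (ht : ∀ a : K, algebraMap K F a ≠ t) (a : R) :
    tSub1 M - algebraMap R ↥B1 a ≠ 0 := by
  intro h
  have h1 : t⁻¹ - algebraMap R F a = 0 := congrArg (fun x : ↥B1 => (x : F)) h
  have h2 : t⁻¹ = algebraMap K F (algebraMap R K a) := by
    rw [← IsScalarTower.algebraMap_apply R K F]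
    exact sub_eq_zero.1 h1
  apply ht (algebraMap R K a)⁻¹
  rw [map_inv₀, ← h2, inv_inv]

end Charts

/-! ### (INT_j) integrality over the line, on the subtypes -/

section Int

/-- integrality over `R[s] ⊆ F` of an element of a subalgebra `B ∋ s` is integrality over
`R[s] ⊆ ↥B`. -/
theorem isIntegral_adjoin_subtype (B : Subalgebra R F) {s : F} (hs : s ∈ B) (b : ↥B)
    (hb : IsIntegral (Algebra.adjoin R {s}) (b : F)) :
    IsIntegral (Algebra.adjoin R {(⟨s, hs⟩ : ↥B)}) b := by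
  -- the comparison map `R[s] (in B) → R[s] (in F)` is surjective
  have hmap : (Algebra.adjoin R {(⟨s, hs⟩ : ↥B)}).map B.val = Algebra.adjoin R {s} := by
    rw [AlgHom.map_adjoin, Set.image_singleton]
    rfl
  obtain ⟨P, hP, hPb⟩ := hb
  -- lift the coefficients
  have hlift : ∀ c : ↥(Algebra.adjoin R {s}), ∃ d : ↥(Algebra.adjoin R {(⟨s, hs⟩ : ↥B)}),
      ((d : ↥B) : F) = c := by
    intro c
    have hc : (c : F) ∈ (Algebra.adjoin R {(⟨s, hs⟩ : ↥B)}).map B.val := by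
      rw [hmap]; exact c.2
    obtain ⟨d, hd, hdc⟩ := hc
    exact ⟨⟨d, hd⟩, hdc⟩
  choose φ hφ using hlift
  let Q : (↥(Algebra.adjoin R {(⟨s, hs⟩ : ↥B)}))[X] :=
    X ^ P.natDegree + ∑ i ∈ Finset.range P.natDegree, C (φ (P.coeff i)) * X ^ i
  have hQdeg : (∑ i ∈ Finset.range P.natDegree, C (φ (P.coeff i)) * X ^ i :
      (↥(Algebra.adjoin R {(⟨s, hs⟩ : ↥B)}))[X]).degree < (P.natDegree : WithBot ℕ) := by
    refine (Polynomial.degree_sum_le _ _).trans_lt ?_
    rw [Finset.sup_lt_iff (WithBot.bot_lt_coe _)]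
    intro i hi
    refine (Polynomial.degree_C_mul_X_pow_le i _).trans_lt ?_
    exact_mod_cast Finset.mem_range.1 hi
  have hQmonic : Q.Monic := Polynomial.monic_X_pow_add hQdeg
  refine ⟨Q, hQmonic, ?_⟩
  apply Subtype.val_injective
  -- evaluate in `F`
  have hP' : (P.eval₂ (algebraMap ↥(Algebra.adjoin R {s}) F) (b : F)) = 0 := hPb
  rw [Polynomial.eval₂_eq_sum_range] at hP'
  rw [Finset.sum_range_succ, ← Polynomial.leadingCoeff, hP.leadingCoeff, map_one, one_mul] at hP'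
  show ((Q.eval₂ (algebraMap _ ↥B) b : ↥B) : F) = ((0 : ↥B) : F)
  rw [Polynomial.eval₂_add, Polynomial.eval₂_pow, Polynomial.eval₂_X, Polynomial.eval₂_finsetSum,
    Subalgebra.coe_add, Subalgebra.coe_pow, ZeroMemClass.coe_zero, ← hP', add_comm]
  congr 1
  rw [AddSubmonoidClass.coe_finsetSum]
  refine Finset.sum_congr rfl fun i _ => ?_
  rw [Polynomial.eval₂_mul, Polynomial.eval₂_C, Polynomial.eval₂_pow, Polynomial.eval₂_X,
    Subalgebra.coe_mul, Subalgebra.coe_pow]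
  congr 1
  exact hφ (P.coeff i)

variable (M : TwoChartModel R K F π t B0 B1 Ov)

include M in
/-- **(INT_0)** every element of the chart `B0` is integral over `R[t] ⊆ B0`. -/
theorem isIntegral_adjoin_tSub0 (b : ↥B0) : IsIntegral (Algebra.adjoin R {tSub0 M}) b :=
  isIntegral_adjoin_subtype B0 M.t_mem b (M.int0 _ b.2)

include M in
/-- **(INT_1)** every element of the chart `B1` is integral over `R[t⁻¹] ⊆ B1`. -/
theorem isIntegral_adjoin_tSub1 (b : ↥B1) : IsIntegral (Algebra.adjoin R {tSub1 M}) b :=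
  isIntegral_adjoin_subtype B1 M.tinv_mem b (M.int1 _ b.2)

end Int

end Fermat.Agent.T1.ModelFacts62
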