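/-
T1A (S19), brick G2-X MODEL-FACTS (helper62), file 3: the facts about the HUB rings
`C_j = O ⊗[W] B_j` consumed by the REDUCTION layer (helper75's list T1-T6), obtained by transport
along an isomorphism `e : O ⊗[W] B ≃ₐ[O] ↥B'` onto a chart `B'` of a
`TwoChartModel O L F' π' t' B0' B1' Ov'` (the model over `L`; `e` is helper51's G2 base change
isomorphism, here a hypothesis).

* (T1) `hub_isDomain`, `hub_isNoetherianRing0/1`;
* (T2) `hub_smooth0/1` : the smoothness property for `O ⊗[W] B`;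
* (T3) `hub_tmul_sub_ne_zero0/1` : `1 ⊗ t - a ⊗ 1 ≠ 0`;
* packaged: `hub_invertible_ptIdeal0/1` : `Module.Invertible (O ⊗[W] B) (ptIdeal q)` for every
  `O`-point `q : B →ₐ[W] O`;
* (T4) `hub_pi_regular`, (T5) `hub_prime_pi0/1/01`, `hub_span_pi_isPrime0/1`,
  (T6) `hub_pi_not_isUnit01` (and `0`, `1`);
* `hub_flat` : `O ⊗[W] B` is flat over `O`.
-/
import Mathlib
import Fermat.Agent.T1.ModelFacts62.Chart
import Fermat.Agent.T1.ModelFacts62.Transport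
import Fermat.Agent.T1.PtInvLine75

set_option autoImplicit false
set_option linter.unusedSectionVars false
set_option linter.style.haveILetI false

open TensorProduct

namespace Fermat.Agent.T1.ModelFacts62

open Fermat.Agent.RED.CORE.CoreIface24 Fermat.Agent.T1.ModelCoh30 Fermat.Agent.T1.PtLine75
  Fermat.Agent.T1.PtInv75 Fermat.Agent.T1.PtInvLine75

universe u

variable {W O B : Type u} [CommRing W] [CommRing O] [CommRing B] [Algebra W O] [Algebra W B]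
variable {L F' : Type u} [Field L] [Field F'] [Algebra O L] [Algebra L F'] [Algebra O F']
  [IsScalarTower O L F']
  {π' : O} {t' : F'} {B0' B1' : Subalgebra O F'} {Ov' : ValuationSubring F'}

/-! ### (T1) domain, noetherian, flat -/

/-- (T1) a hub ring isomorphic to a subalgebra of a field is a domain. -/
theorem hub_isDomain (B' : Subalgebra O F') (e : (O ⊗[W] B) ≃ₐ[O] ↥B') : IsDomain (O ⊗[W] B) :=
  isDomain_of_algEquiv e

theorem hub_isNoetherianRing0 (hL : TwoChartModel O L F' π' t' B0' B1' Ov')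
    (e : (O ⊗[W] B) ≃ₐ[O] ↥B0') : IsNoetherianRing (O ⊗[W] B) :=
  haveI := hL.noeth0
  isNoetherianRing_of_algEquiv e

theorem hub_isNoetherianRing1 (hL : TwoChartModel O L F' π' t' B0' B1' Ov')
    (e : (O ⊗[W] B) ≃ₐ[O] ↥B1') : IsNoetherianRing (O ⊗[W] B) :=
  haveI := hL.noeth1
  isNoetherianRing_of_algEquiv e

/-- a hub ring isomorphic to a subalgebra of `F'` is flat over `O`. -/
theorem hub_flat (hL : TwoChartModel O L F' π' t' B0' B1' Ov') (B' : Subalgebra O F')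
    (e : (O ⊗[W] B) ≃ₐ[O] ↥B') : Module.Flat O (O ⊗[W] B) :=
  haveI := flat_subalgebra hL B'
  Module.Flat.of_linearEquiv e.toLinearEquiv

/-! ### (T2) smoothness -/

theorem hub_smooth0 (hL : TwoChartModel O L F' π' t' B0' B1' Ov')
    (e : (O ⊗[W] B) ≃ₐ[O] ↥B0') :
    ∀ x : Ideal (O ⊗[W] B), x.IsMaximal → algebraMap O (O ⊗[W] B) π' ∈ x →
      ∃ s ∈ x, ∀ y ∈ x, ∃ d : O ⊗[W] B, d ∉ x ∧
        d * y ∈ Ideal.span {algebraMap O (O ⊗[W] B) π', s} :=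
  smooth_of_algEquiv e π' hL.smooth0

theorem hub_smooth1 (hL : TwoChartModel O L F' π' t' B0' B1' Ov')
    (e : (O ⊗[W] B) ≃ₐ[O] ↥B1') :
    ∀ x : Ideal (O ⊗[W] B), x.IsMaximal → algebraMap O (O ⊗[W] B) π' ∈ x →
      ∃ s ∈ x, ∀ y ∈ x, ∃ d : O ⊗[W] B, d ∉ x ∧
        d * y ∈ Ideal.span {algebraMap O (O ⊗[W] B) π', s} :=
  smooth_of_algEquiv e π' hL.smooth1

/-! ### (T3) the ideal of a point is nonzero -/

/-- (T3), generic: if `e (1 ⊗ b)` is not a constant of `O`, then `1 ⊗ b - a ⊗ 1 ≠ 0`. -/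
theorem hub_tmul_sub_ne_zero (B' : Subalgebra O F') (e : (O ⊗[W] B) ≃ₐ[O] ↥B') (b : B)
    (hb : ∀ a : O, algebraMap O F' a ≠ ((e ((1 : O) ⊗ₜ[W] b) : ↥B') : F')) (a : O) :
    (1 : O) ⊗ₜ[W] b - a ⊗ₜ[W] (1 : B) ≠ 0 := by
  intro h
  apply hb a
  have h1 : a ⊗ₜ[W] (1 : B) = algebraMap O (O ⊗[W] B) a := by
    rw [Algebra.TensorProduct.algebraMap_apply, Algebra.algebraMap_self, RingHom.id_apply]
  have h2 := congrArg e (sub_eq_zero.1 h)
  rw [h1, e.commutes] at h2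
  rw [h2]
  rfl

/-- (T3), chart `0`: `1 ⊗ t - a ⊗ 1 ≠ 0` when `t'` is not a constant. -/
theorem hub_tmul_sub_ne_zero0 (e : (O ⊗[W] B) ≃ₐ[O] ↥B0') (tB : B)
    (he : ((e ((1 : O) ⊗ₜ[W] tB) : ↥B0') : F') = t') (ht' : ∀ a : L, algebraMap L F' a ≠ t')
    (a : O) : (1 : O) ⊗ₜ[W] tB - a ⊗ₜ[W] (1 : B) ≠ 0 := by
  refine hub_tmul_sub_ne_zero B0' e tB (fun a => ?_) a
  rw [he, IsScalarTower.algebraMap_apply O L F']
  exact ht' _

/-- (T3), chart `1`: `1 ⊗ s - a ⊗ 1 ≠ 0` (`s = t⁻¹`) when `t'` is not a constant. -/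
theorem hub_tmul_sub_ne_zero1 (e : (O ⊗[W] B) ≃ₐ[O] ↥B1') (sB : B)
    (he : ((e ((1 : O) ⊗ₜ[W] sB) : ↥B1') : F') = t'⁻¹) (ht' : ∀ a : L, algebraMap L F' a ≠ t')
    (a : O) : (1 : O) ⊗ₜ[W] sB - a ⊗ₜ[W] (1 : B) ≠ 0 := by
  refine hub_tmul_sub_ne_zero B1' e sB (fun a h => ?_) a
  rw [he, IsScalarTower.algebraMap_apply O L F'] at h
  apply ht' (algebraMap O L a)⁻¹
  rw [map_inv₀, h, inv_inv]

/-! ### Packaged: the ideal of every `O`-point is invertible -/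

/-- **The ideal of every `O`-point of the hub chart `0` is an invertible module.** -/
theorem hub_invertible_ptIdeal0 (hL : TwoChartModel O L F' π' t' B0' B1' Ov')
    (e : (O ⊗[W] B) ≃ₐ[O] ↥B0') (tB : B)
    (he : ((e ((1 : O) ⊗ₜ[W] tB) : ↥B0') : F') = t') (ht' : ∀ a : L, algebraMap L F' a ≠ t')
    (q : B →ₐ[W] O) : Module.Invertible (O ⊗[W] B) (ptIdeal q) := by
  haveI : IsDomain O := isDomain hL
  haveI : IsDomain (O ⊗[W] B) := hub_isDomain B0' e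
  haveI : IsNoetherianRing (O ⊗[W] B) := hub_isNoetherianRing0 hL e
  exact invertible_ptIdeal_of_smooth π' (pi_ne_zero hL) hL.dvrR (pi_not_isUnit hL) q
    (ptIdeal_ne_bot q tB (hub_tmul_sub_ne_zero0 e tB he ht' (q tB))) (hub_smooth0 hL e)

/-- **The ideal of every `O`-point of the hub chart `1` is an invertible module.** -/
theorem hub_invertible_ptIdeal1 (hL : TwoChartModel O L F' π' t' B0' B1' Ov')
    (e : (O ⊗[W] B) ≃ₐ[O] ↥B1') (sB : B)
    (he : ((e ((1 : O) ⊗ₜ[W] sB) : ↥B1') : F') = t'⁻¹) (ht' : ∀ a : L, algebraMap L F' a ≠ t')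
    (q : B →ₐ[W] O) : Module.Invertible (O ⊗[W] B) (ptIdeal q) := by
  haveI : IsDomain O := isDomain hL
  haveI : IsDomain (O ⊗[W] B) := hub_isDomain B1' e
  haveI : IsNoetherianRing (O ⊗[W] B) := hub_isNoetherianRing1 hL e
  exact invertible_ptIdeal_of_smooth π' (pi_ne_zero hL) hL.dvrR (pi_not_isUnit hL) q
    (ptIdeal_ne_bot q sB (hub_tmul_sub_ne_zero1 e sB he ht' (q sB))) (hub_smooth1 hL e)

/-! ### (T4)-(T6) the uniformiser in the hub rings -/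

/-- (T4) `π` is a nonzerodivisor of a hub ring. -/
theorem hub_pi_regular (hL : TwoChartModel O L F' π' t' B0' B1' Ov') (B' : Subalgebra O F')
    (hle : ∀ x ∈ B', x ∈ Ov') (e : (O ⊗[W] B) ≃ₐ[O] ↥B') :
    ∀ x : O ⊗[W] B, algebraMap O (O ⊗[W] B) π' * x = 0 → x = 0 :=
  regular_algebraMap_of_algEquiv e (pi_regular_sub hL B' hle)

/-- (T5) `π` is a prime element of the hub ring `C_0`. -/
theorem hub_prime_pi0 (hL : TwoChartModel O L F' π' t' B0' B1' Ov')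
    (e : (O ⊗[W] B) ≃ₐ[O] ↥B0') : Prime (algebraMap O (O ⊗[W] B) π') :=
  prime_algebraMap_of_algEquiv e (prime_pi0 hL)

/-- (T5) `π` is a prime element of the hub ring `C_1`. -/
theorem hub_prime_pi1 (hL : TwoChartModel O L F' π' t' B0' B1' Ov')
    (e : (O ⊗[W] B) ≃ₐ[O] ↥B1') : Prime (algebraMap O (O ⊗[W] B) π') :=
  prime_algebraMap_of_algEquiv e (prime_pi1 hL)

/-- `π` is a prime element of the hub ring `C_01` (for `B01' = B0' ⊔ B1'`). -/
theorem hub_prime_pi01 (hL : TwoChartModel O L F' π' t' B0' B1' Ov')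
    (e : (O ⊗[W] B) ≃ₐ[O] ↥(B0' ⊔ B1')) : Prime (algebraMap O (O ⊗[W] B) π') :=
  prime_algebraMap_of_algEquiv e (prime_pi01 hL)

/-- (T5), ideal form. -/
theorem hub_span_pi_isPrime0 (hL : TwoChartModel O L F' π' t' B0' B1' Ov')
    (e : (O ⊗[W] B) ≃ₐ[O] ↥B0') :
    (Ideal.span {algebraMap O (O ⊗[W] B) π'} : Ideal (O ⊗[W] B)).IsPrime :=
  (Ideal.span_singleton_prime (hub_prime_pi0 hL e).ne_zero).2 (hub_prime_pi0 hL e)

theorem hub_span_pi_isPrime1 (hL : TwoChartModel O L F' π' t' B0' B1' Ov')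
    (e : (O ⊗[W] B) ≃ₐ[O] ↥B1') :
    (Ideal.span {algebraMap O (O ⊗[W] B) π'} : Ideal (O ⊗[W] B)).IsPrime :=
  (Ideal.span_singleton_prime (hub_prime_pi1 hL e).ne_zero).2 (hub_prime_pi1 hL e)

/-- (T6) `π` is not a unit of a hub ring whose chart lies in `Ov'` (`C_0`, `C_1`, `C_01`). -/
theorem hub_pi_not_isUnit (hL : TwoChartModel O L F' π' t' B0' B1' Ov') (B' : Subalgebra O F')
    (hle : ∀ x ∈ B', x ∈ Ov') (e : (O ⊗[W] B) ≃ₐ[O] ↥B') :
    ¬ IsUnit (algebraMap O (O ⊗[W] B) π') :=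
  not_isUnit_algebraMap_of_algEquiv e (pi_not_isUnit_sub hL B' hle)

/-- (T6) `π` is not a unit of `C_01` (for `B01' = B0' ⊔ B1'`). -/
theorem hub_pi_not_isUnit01 (hL : TwoChartModel O L F' π' t' B0' B1' Ov')
    (e : (O ⊗[W] B) ≃ₐ[O] ↥(B0' ⊔ B1')) : ¬ IsUnit (algebraMap O (O ⊗[W] B) π') :=
  hub_pi_not_isUnit hL (B0' ⊔ B1') (sup_le_Ov hL) e

end Fermat.Agent.T1.ModelFacts62
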