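/-
T1A (S19), brick G2-X MODEL-FACTS (helper62), file 2: transport of ring-theoretic facts along an
algebra isomorphism `e : C ≃ₐ[O] C'` (in the application `C = O ⊗[W] ↥B_j` is a hub ring and
`C' = ↥B_j^L` the chart of the model over `L`; `e` is helper51's G2 base change isomorphism).

* `isDomain_of_algEquiv`, `isNoetherianRing_of_algEquiv`;
* `prime_algebraMap_of_algEquiv`, `not_isUnit_algebraMap_of_algEquiv`, `regular_algebraMap_of_algEquiv`;
* `smooth_of_algEquiv` : the smoothness property `TwoChartModel.smooth_j` (in the shape consumed by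
  `PtInv75.invertible_ker_of_smooth`).
-/
import Mathlib

set_option autoImplicit false

namespace Fermat.Agent.T1.ModelFacts62

variable {O C C' : Type*} [CommRing O] [CommRing C] [CommRing C'] [Algebra O C] [Algebra O C']

theorem isDomain_of_algEquiv (e : C ≃ₐ[O] C') [IsDomain C'] : IsDomain C :=
  e.toMulEquiv.isDomain

theorem isNoetherianRing_of_algEquiv (e : C ≃ₐ[O] C') [IsNoetherianRing C'] :
    IsNoetherianRing C :=
  isNoetherianRing_of_ringEquiv C' e.symm.toRingEquiv

theorem prime_algebraMap_of_algEquiv (e : C ≃ₐ[O] C') {a : O} (h : Prime (algebraMap O C' a)) :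
    Prime (algebraMap O C a) := by
  rw [← MulEquiv.prime_iff e.toMulEquiv]
  show Prime (e (algebraMap O C a))
  rw [e.commutes]
  exact h

theorem not_isUnit_algebraMap_of_algEquiv (e : C ≃ₐ[O] C') {a : O} (h : ¬ IsUnit (algebraMap O C' a)) :
    ¬ IsUnit (algebraMap O C a) := by
  intro hu
  apply h
  rw [← e.commutes]
  exact hu.map e

theorem regular_algebraMap_of_algEquiv (e : C ≃ₐ[O] C') {a : O}
    (h : ∀ x : C', algebraMap O C' a * x = 0 → x = 0) :
    ∀ x : C, algebraMap O C a * x = 0 → x = 0 := by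
  intro x hx
  apply e.injective
  rw [map_zero]
  apply h
  rw [← e.commutes, ← map_mul, hx, map_zero]

/-- The smoothness property of a chart (`TwoChartModel.smooth_j`) transports along an algebra
isomorphism. -/
theorem smooth_of_algEquiv (e : C ≃ₐ[O] C') (π : O)
    (h : ∀ x : Ideal C', x.IsMaximal → algebraMap O C' π ∈ x →
      ∃ s ∈ x, ∀ y ∈ x, ∃ d : C', d ∉ x ∧ d * y ∈ Ideal.span {algebraMap O C' π, s}) :
    ∀ x : Ideal C, x.IsMaximal → algebraMap O C π ∈ x →
      ∃ s ∈ x, ∀ y ∈ x, ∃ d : C, d ∉ x ∧ d * y ∈ Ideal.span {algebraMap O C π, s} := by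
  intro x hx hπx
  -- the corresponding maximal ideal of `C'`
  let x' : Ideal C' := x.comap (e.symm : C' →+* C)
  have hx' : x'.IsMaximal := Ideal.comap_isMaximal_of_surjective _ e.symm.surjective
  have hmem : ∀ c : C, e c ∈ x' ↔ c ∈ x := by
    intro c
    show e.symm (e c) ∈ x ↔ c ∈ x
    rw [e.symm_apply_apply]
  have hπx' : algebraMap O C' π ∈ x' := by
    rw [← e.commutes, hmem]
    exact hπx
  obtain ⟨s', hs', hsm⟩ := h x' hx' hπx'
  refine ⟨e.symm s', hs', fun y hy => ?_⟩
  obtain ⟨d', hd', hdy⟩ := hsm (e y) ((hmem y).2 hy)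
  refine ⟨e.symm d', fun hd => hd' hd, ?_⟩
  obtain ⟨a, b, hab⟩ := Ideal.mem_span_pair.1 hdy
  rw [Ideal.mem_span_pair]
  refine ⟨e.symm a, e.symm b, ?_⟩
  apply e.injective
  rw [map_add, map_mul, map_mul, map_mul, e.apply_symm_apply, e.apply_symm_apply,
    e.apply_symm_apply, e.apply_symm_apply, e.commutes]
  exact hab

end Fermat.Agent.T1.ModelFacts62
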