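/-
T1A (S19), CONCRETE HUB, deliverable (1) (helper62, twin of helper44's HubGalInst44): **the
concrete `GalAct44.ChartAction` of the local Galois group `G_ℓ` on the hub `Concrete.c0 F`**,
`F : Assembly41.Concrete.ModelFamily ℓ M n e` arbitrary.

`σ : Gp ℓ` acts through `τ_σ = localGaloisToGlobal ℓ σ ∈ Gal(ℚ̄/ℚ)`, restricted to `K₁ = ℚ(ζ_M)`
(`rho σ = HubInst98.resL (K1 M) τ_σ`), on `W = A ∩ K₁` by `ChartAut9.Concrete.sigmaO` and on the
charts coefficientwise by `ChartAut9.Concrete.arithHom` (the coordinate `tq` has rational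
coefficients, so it is fixed).

* `chartAut F σ : ChartAut (c0 F)`  (helper56's `ChartAut56.Final.chartAutOfModel`);
* `chartAction F : ChartAction (c0 F) (Gp ℓ)`;
* (ii) `wCompat F : Assembly41.WCompat ℓ M (c0 F) (chartAction F)`;
* (iii) `σ01_eq_id`, `σ0_eq_id`, `σ1_eq_id` : if `τ_σ` fixes `K₁` pointwise the action is trivial;
* (iv) `coe_σ0`, `coe_σ1`, `coe_σ01` : the action on the charts is `Dict59.arith`.
-/
import Mathlib
import Fermat.Agent.T1.Assembly41.ConcreteHub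
import Fermat.Agent.T1.Assembly41.FastInst
import Fermat.Agent.T1.ChartAut56.Final
import Fermat.Agent.T1.Dict59.Iface

set_option autoImplicit false
set_option linter.unusedSectionVars false
set_option linter.unusedVariables false
set_option linter.style.haveILetI false

noncomputable section

namespace Fermat.Agent.T1.ModelFacts62.ChartActConcrete

open Fermat.Agent Fermat.Agent.Jac Fermat.Agent.T1.HubInst98
open Fermat.Agent.RED.Interface4 Fermat.Agent.RED.CORE.CoreIface24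
open Fermat.Agent.RED.PUR.GaussGen8 Fermat.Agent.RED.PUR.ChartGeneric22
open Fermat.Agent.RED.BASE.EtaQuot12
open Fermat.Agent.T1.ModelUnr4.Explicit Fermat.Agent.T1.Coh60
open Fermat.Agent.X0
open Fermat.Agent.T1.Assembly41 Fermat.Agent.T1.Assembly41.Concrete
open Fermat.Agent.T1.RedIface75 Fermat.Agent.T1.GalAct44
open Fermat.Agent.T1.ChartAut9.Concrete Fermat.Agent.T1.ChartAut9.Generic
open Fermat.Agent.T1.ChartAut56.Final
open Fermat.Agent.TW.B5.Iface
open ModularCurve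
open scoped Fermat.Agent.T1.Assembly41.FastInst

attribute [local instance] Coh60.algebra0 Coh60.algebra1 Coh60.isScalarTower0
  Coh60.isScalarTower1

variable {ℓ : ℕ} [Fact ℓ.Prime] {M : ℕ} [NeZero M] {n e : ℕ} [NeZero n]

/-! ### the restriction of the local Galois group to `K₁` -/

variable (ℓ M) in
/-- `σ ↦ τ_σ|_{K₁}`. -/
def rho (σ : Gp ℓ) : ↥(K1 M) ≃ₐ[ℚ] ↥(K1 M) := resL (K1 M) (localGaloisToGlobal ℓ σ)

theorem rho_one : rho ℓ M 1 = 1 := by
  unfold rho
  rw [map_one, resL_one]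

theorem rho_mul (σ τ : Gp ℓ) : rho ℓ M (σ * τ) = rho ℓ M σ * rho ℓ M τ := by
  unfold rho
  rw [map_mul, resL_mul]

theorem rho_eq_one_of_fixes {σ : Gp ℓ} (h : ∀ x ∈ K1 M, localGaloisToGlobal ℓ σ x = x) :
    rho ℓ M σ = 1 :=
  AlgEquiv.ext fun x => resL_eq_self_of_fixes (K1 M) h x

theorem rho_mem (σ : Gp ℓ) (x : ↥(K1 M)) (hx : x ∈ AK (padicPlace ℓ) (K1 M)) :
    rho ℓ M σ x ∈ AK (padicPlace ℓ) (K1 M) :=
  (resL_mem_AK_iff (padicPlace ℓ) (K1 M) (preserves_localGaloisToGlobal ℓ σ) x).mpr hx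

/-! ### the chart automorphisms -/

variable (F : ModelFamily ℓ M n e)

/-- The coordinate is fixed by the coefficientwise action. -/
theorem arith_tK (σ : Gp ℓ) :
    arithHom (modularFunctionFieldFull M) (rho ℓ M σ) (tK F (K1 M)) = tK F (K1 M) :=
  arithHom_tq (modularFunctionFieldFull M) (rho ℓ M σ) n e (F.htq (K1 M))

/-- **The chart automorphism of the hub attached to `σ ∈ G_ℓ`.** -/
def chartAut (σ : Gp ℓ) : ChartAut (c0 F :) :=
  chartAutOfModel (modelK F (K1 M) (zetaK_mem_K1 M))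
    (semiOn_arith (AK (padicPlace ℓ) (K1 M)) (modularFunctionFieldFull M) (rho ℓ M σ) (rho_mem σ))
    (arith_tK F σ) (c0 F :) rfl rfl (fun _ => rfl) (fun _ => rfl)

theorem chartAut_σW (σ : Gp ℓ) :
    (chartAut F σ).σW = sigmaO (AK (padicPlace ℓ) (K1 M)) (rho ℓ M σ) (rho_mem σ) := rfl

theorem coe_chartAut_σ0 (σ : Gp ℓ) (b : ↥(B0K F (K1 M))) :
    (((chartAut F σ).σ0 b : ↥(B0K F (K1 M))) : ↥(FK M (K1 M))) =
      arithHom (modularFunctionFieldFull M) (rho ℓ M σ) b := rfl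

theorem coe_chartAut_σ1 (σ : Gp ℓ) (b : ↥(B1K F (K1 M))) :
    (((chartAut F σ).σ1 b : ↥(B1K F (K1 M))) : ↥(FK M (K1 M))) =
      arithHom (modularFunctionFieldFull M) (rho ℓ M σ) b := rfl

theorem coe_chartAut_σ01 (σ : Gp ℓ) (b : ↥(B0K F (K1 M) ⊔ B1K F (K1 M))) :
    (((chartAut F σ).σ01 b : ↥(B0K F (K1 M) ⊔ B1K F (K1 M))) : ↥(FK M (K1 M))) =
      arithHom (modularFunctionFieldFull M) (rho ℓ M σ) b := rfl

/-! ### the action -/

theorem arith_one (x : ↥(FK M (K1 M))) :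
    arithHom (modularFunctionFieldFull M) (rho ℓ M 1) x = x := by
  rw [rho_one, arithHom_one]
  rfl

theorem arith_mul (σ τ : Gp ℓ) (x : ↥(FK M (K1 M))) :
    arithHom (modularFunctionFieldFull M) (rho ℓ M (σ * τ)) x =
      arithHom (modularFunctionFieldFull M) (rho ℓ M σ)
        (arithHom (modularFunctionFieldFull M) (rho ℓ M τ) x) := by
  rw [rho_mul, arithHom_mul]
  rfl

theorem arith_of_fixes {σ : Gp ℓ} (h : ∀ x ∈ K1 M, localGaloisToGlobal ℓ σ x = x)
    (x : ↥(FK M (K1 M))) : arithHom (modularFunctionFieldFull M) (rho ℓ M σ) x = x := by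
  rw [rho_eq_one_of_fixes h, arithHom_one]
  rfl

/-- **(i) The action of `G_ℓ` on the concrete hub.** -/
def chartAction : ChartAction (c0 F :) (Gp ℓ) where
  S := chartAut F
  oneW := RingHom.ext fun r => Subtype.ext (by
    show rho ℓ M 1 (r : ↥(K1 M)) = _
    rw [rho_one]; rfl)
  one0 := RingHom.ext fun b => Subtype.ext (arith_one _)
  one1 := RingHom.ext fun b => Subtype.ext (arith_one _)
  one01 := RingHom.ext fun b => Subtype.ext (arith_one _)
  mulW := fun σ τ => RingHom.ext fun r => Subtype.ext (by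
    show rho ℓ M (σ * τ) (r : ↥(K1 M)) = rho ℓ M σ (rho ℓ M τ (r : ↥(K1 M)))
    rw [rho_mul]; rfl)
  mul0 := fun σ τ => RingHom.ext fun b => Subtype.ext (arith_mul σ τ _)
  mul1 := fun σ τ => RingHom.ext fun b => Subtype.ext (arith_mul σ τ _)
  mul01 := fun σ τ => RingHom.ext fun b => Subtype.ext (arith_mul σ τ _)

@[simp] theorem chartAction_S (σ : Gp ℓ) : (chartAction F).S σ = chartAut F σ := rfl

/-- **(ii)** the action on the constants `W = A ∩ K₁` is the Galois action. -/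
theorem wCompat : WCompat ℓ M (c0 F :) (chartAction F) := by
  intro σ w
  exact Subtype.ext rfl

/-- **(iii)** if `τ_σ` fixes `K₁` pointwise, `σ` acts trivially on the overlap ring. -/
theorem σ01_eq_id (σ : Gp ℓ) (h : ∀ x ∈ K1 M, localGaloisToGlobal ℓ σ x = x) :
    ((chartAction F).S σ).σ01 = RingHom.id ↥(B0K F (K1 M) ⊔ B1K F (K1 M)) :=
  RingHom.ext fun b => Subtype.ext (arith_of_fixes h _)

theorem σ0_eq_id (σ : Gp ℓ) (h : ∀ x ∈ K1 M, localGaloisToGlobal ℓ σ x = x) :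
    ((chartAction F).S σ).σ0 = RingHom.id ↥(B0K F (K1 M)) :=
  RingHom.ext fun b => Subtype.ext (arith_of_fixes h _)

theorem σ1_eq_id (σ : Gp ℓ) (h : ∀ x ∈ K1 M, localGaloisToGlobal ℓ σ x = x) :
    ((chartAction F).S σ).σ1 = RingHom.id ↥(B1K F (K1 M)) :=
  RingHom.ext fun b => Subtype.ext (arith_of_fixes h _)

theorem σW_eq_id (σ : Gp ℓ) (h : ∀ x ∈ K1 M, localGaloisToGlobal ℓ σ x = x) :
    ((chartAction F).S σ).σW = RingHom.id (Wr ℓ M) :=
  RingHom.ext fun r => Subtype.ext (by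
    show rho ℓ M σ (r : ↥(K1 M)) = _
    rw [rho_eq_one_of_fixes h]; rfl)

/-- **(iv)** the action on chart 0 is `Dict59.arith`. -/
theorem coe_σ0 (σ : Gp ℓ) (b : ↥(B0K F (K1 M))) :
    ((((chartAction F).S σ).σ0 b : ↥(B0K F (K1 M))) : ↥(FK M (K1 M))) =
      Fermat.Agent.T1.Dict59.arith M (K1 M) (resL (K1 M) (localGaloisToGlobal ℓ σ))
        (b : ↥(FK M (K1 M))) := rfl

/-- **(iv)** the action on chart 1 is `Dict59.arith`. -/
theorem coe_σ1 (σ : Gp ℓ) (b : ↥(B1K F (K1 M))) :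
    ((((chartAction F).S σ).σ1 b : ↥(B1K F (K1 M))) : ↥(FK M (K1 M))) =
      Fermat.Agent.T1.Dict59.arith M (K1 M) (resL (K1 M) (localGaloisToGlobal ℓ σ))
        (b : ↥(FK M (K1 M))) := rfl

/-- **(iv)** the action on the overlap ring is `Dict59.arith`. -/
theorem coe_σ01 (σ : Gp ℓ) (b : ↥(B0K F (K1 M) ⊔ B1K F (K1 M))) :
    ((((chartAction F).S σ).σ01 b : ↥(B0K F (K1 M) ⊔ B1K F (K1 M))) : ↥(FK M (K1 M))) =
      Fermat.Agent.T1.Dict59.arith M (K1 M) (resL (K1 M) (localGaloisToGlobal ℓ σ))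
        (b : ↥(FK M (K1 M))) := rfl

end Fermat.Agent.T1.ModelFacts62.ChartActConcrete
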