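/-
T1A (S19), CONCRETE HUB, brick G7-C CHARTISO concrete (helper62, twin of helper22's
ChartIsoConcrete22): **the chart isomorphism family of the concrete hub** `Concrete.c0 F`,
`F : Assembly41.Concrete.ModelFamily ℓ M n e` arbitrary.

For every number field `L ⊇ K₁ = ℚ(ζ_M)`:
* `bcD L hle`  : chosen base change data for `A ∩ K₁ ⊂ A ∩ L`, `K₁·F_M ⊂ L·F_M`
  (helper51's `NumField.exists_bcDataNF`), with `bcD_iR`, `bcD_iF`, `bcD_iF_eq_cLL`;
* `E F L hle : ChartIso ((c0 F).baseChange ↥L) (tK F L)` : helper20's `ChartIso20.chartIso`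
  transported along `iF (tK F K₁) = tK F L`;
* `isStdIso F L hle` : it is standard on pure tensors for the subtype embeddings `β0`, `β1`, `β01`;
* `isCoord F L hle`;
* `chartIsoFamily F H hσ0 hσ1 : Dict59.ChartIsoFamily ℓ M (c0 F) H` for ANY chart action `H` which
  is the arithmetic action on the charts (helper90's `chartIsoFamily_of_std`).
-/
import Mathlib
import Fermat.Agent.T1.Assembly41.ConcreteHub
import Fermat.Agent.T1.Assembly41.FastInst
import Fermat.Agent.T1.ModelBC51.NumFieldGlue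
import Fermat.Agent.T1.ChartIso20
import Fermat.Agent.T1.ChartIsoFam90

set_option autoImplicit false
set_option linter.unusedSectionVars false
set_option linter.unusedVariables false
set_option linter.style.haveILetI false
set_option synthInstance.maxHeartbeats 400000
set_option maxHeartbeats 1000000

noncomputable section

open TensorProduct

namespace Fermat.Agent.T1.ModelFacts62.ChartIsoConcrete

open Fermat.Agent Fermat.Agent.Jac Fermat.Agent.T1.HubInst98
open Fermat.Agent.RED.Interface4 Fermat.Agent.RED.CORE.CoreIface24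
open Fermat.Agent.RED.PUR.GaussGen8 Fermat.Agent.RED.PUR.ChartGeneric22
open Fermat.Agent.RED.BASE.EtaQuot12
open Fermat.Agent.T1.ModelUnr4.Explicit Fermat.Agent.T1.Coh60
open Fermat.Agent.X0
open Fermat.Agent.T1.Assembly41 Fermat.Agent.T1.Assembly41.Concrete
open Fermat.Agent.T1.RedIface75 Fermat.Agent.T1.GalAct44
open Fermat.Agent.T1.ModelBC51.Abstract Fermat.Agent.T1.ModelBC51.Concrete
open Fermat.Agent.T1.ModelBC51.NumField
open Fermat.Agent.T1.Adapt96 Fermat.Agent.T1.Dict59 Fermat.Agent.T1.ChartIso90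
open Fermat.Agent.TW.B5.Iface
open ModularCurve
open scoped Fermat.Agent.T1.Assembly41.FastInst
open scoped Fermat.Agent.Jac.BaseChange75
open scoped Fermat.Agent.T1.ChartIso90

attribute [local instance] Coh60.algebra0 Coh60.algebra1 Coh60.isScalarTower0
  Coh60.isScalarTower1

/-! ### transport of a chart isomorphism along an equality of coordinates -/

section Copy

universe u v

variable {K : Type u} [Field K] {R0 R1 R01 : Type u} [CommRing R0] [CommRing R1] [CommRing R01]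
  [Algebra K R0] [Algebra K R1] [Algebra K R01] [Algebra R0 R01] [Algebra R1 R01]
  [IsScalarTower K R0 R01] [IsScalarTower K R1 R01] {F : Type v} [Field F] [Algebra K F]
  {c : TwoChart K R0 R1 R01}

/-- transport along `t = t'`. -/
def copyIso {t t' : F} (E : ChartIso c t) (h : t = t') : ChartIso c t' := h ▸ E

theorem copyIso_ι0 {t t' : F} (E : ChartIso c t) (h : t = t') : (copyIso E h).ι0 = E.ι0 := by
  subst h; rfl

theorem copyIso_ι1 {t t' : F} (E : ChartIso c t) (h : t = t') : (copyIso E h).ι1 = E.ι1 := by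
  subst h; rfl

theorem copyIso_e01 {t t' : F} (E : ChartIso c t) (h : t = t') : (copyIso E h).e01 = E.e01 := by
  subst h; rfl

end Copy

variable {ℓ : ℕ} [Fact ℓ.Prime] {M : ℕ} [NeZero M] {n e : ℕ} [NeZero n]

/-! ### the base change data -/

section Data

variable (ℓ M)
variable (L : IntermediateField ℚ Qbar) [FiniteDimensional ℚ L] (hle : K1 M ≤ L)

theorem exists_bcD :
    ∃ D : BCData ↥(K1 M) ↥L (unif ℓ (K1 M)) (unif ℓ L)
        (gaussVS (isUnif_AK (hA ℓ) (K1 M) (unif_irreducible ℓ (K1 M))) (FK M (K1 M))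
          (FK_le_fracField_AK (padicPlace ℓ) (K1 M) M))
        (gaussVS (isUnif_AK (hA ℓ) L (unif_irreducible ℓ L)) (FK M L)
          (FK_le_fracField_AK (padicPlace ℓ) L M)),
      D.iR = iR (incl hle) (mem_AK_iff_incl (padicPlace ℓ) hle) ∧ D.iK = incl hle ∧
        D.iF = iF (incl hle) (map_mem_baseChange hle (modularFunctionFieldFull M)) :=
  exists_bcDataNF (padicPlace ℓ) hle (modularFunctionFieldFull M)
    (Fact.out : ℓ.Prime).ne_zero (hA ℓ)
    (isUnif_AK (hA ℓ) (K1 M) (unif_irreducible ℓ (K1 M)))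
    (isUnif_AK (hA ℓ) L (unif_irreducible ℓ L))
    (FK_le_fracField_AK (padicPlace ℓ) (K1 M) M) (FK_le_fracField_AK (padicPlace ℓ) L M)

/-- **The chosen base change data** for `K₁ ≤ L`. -/
def bcD : BCData ↥(K1 M) ↥L (unif ℓ (K1 M)) (unif ℓ L)
    (gaussVS (isUnif_AK (hA ℓ) (K1 M) (unif_irreducible ℓ (K1 M))) (FK M (K1 M))
      (FK_le_fracField_AK (padicPlace ℓ) (K1 M) M))
    (gaussVS (isUnif_AK (hA ℓ) L (unif_irreducible ℓ L)) (FK M L)
      (FK_le_fracField_AK (padicPlace ℓ) L M)) :=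
  (exists_bcD ℓ M L hle).choose

theorem bcD_iR :
    (bcD ℓ M L hle).iR = iR (incl hle) (mem_AK_iff_incl (padicPlace ℓ) hle) :=
  (exists_bcD ℓ M L hle).choose_spec.1

theorem bcD_iF :
    (bcD ℓ M L hle).iF = iF (incl hle) (map_mem_baseChange hle (modularFunctionFieldFull M)) :=
  (exists_bcD ℓ M L hle).choose_spec.2.2

theorem bcD_iF_eq_cLL : (bcD ℓ M L hle).iF = cLL M hle := by
  rw [bcD_iF]
  exact Fermat.Agent.T1.ModelBC51.NumFieldGlue.iF_eq_cLL hle M

theorem bcD_halg :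
    letI := algAK (padicPlace ℓ) hle
    ∀ r : Wr ℓ M, algebraMap (Wr ℓ M) (OL ℓ L) r = (bcD ℓ M L hle).iR r := by
  letI := algAK (padicPlace ℓ) hle
  intro r
  rw [bcD_iR]
  rfl

end Data

/-! ### the chart isomorphisms -/

section Iso

variable (F : ModelFamily ℓ M n e)
variable (L : IntermediateField ℚ Qbar) [FiniteDimensional ℚ L] (hle : K1 M ≤ L)

theorem bcD_coord : (bcD ℓ M L hle).iF (tK F (K1 M)) = tK F L := by
  rw [bcD_iF]
  exact Fermat.Agent.T1.ModelBC51.NumFieldGlue.iF_tq hle (modularFunctionFieldFull M) n e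
    (F.htq (K1 M)) (F.htq L)

/-- the model over `L`, with the coordinate written as `iF t`. -/
theorem modelL' :
    TwoChartModel ↥(AK (padicPlace ℓ) L) ↥L ↥(FK M L) (unif ℓ L)
      ((bcD ℓ M L hle).iF (tK F (K1 M)))
      (chart ↥(AK (padicPlace ℓ) L) ((bcD ℓ M L hle).iF (tK F (K1 M))))
      (chart ↥(AK (padicPlace ℓ) L) ((bcD ℓ M L hle).iF (tK F (K1 M)))⁻¹)
      (gaussVS (isUnif_AK (hA ℓ) L (unif_irreducible ℓ L)) (FK M L)
        (FK_le_fracField_AK (padicPlace ℓ) L M)) := by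
  rw [bcD_coord F L hle]
  exact modelK F L (hle (zetaK_mem_K1 M))

/-- helper20's chart isomorphism at the chosen data (coordinate `iF t`). -/
def E0 :
    letI := algAKL (padicPlace ℓ) hle
    ChartIso ((c0 F :).baseChange ↥L) ((bcD ℓ M L hle).iF (tK F (K1 M))) :=
  letI := algAK (padicPlace ℓ) hle
  Fermat.Agent.T1.ChartIso20.chartIso (bcD ℓ M L hle) (bcD_halg ℓ M L hle)
    (modelK F (K1 M) (zetaK_mem_K1 M)) (modelL' F L hle)

/-- **The chart isomorphism of the concrete hub over `L`**, coordinate `tK F L`. -/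
def E :
    letI := algAKL (padicPlace ℓ) hle
    ChartIso ((c0 F :).baseChange ↥L) (tK F L) :=
  letI := algAKL (padicPlace ℓ) hle
  copyIso (E0 F L hle) (bcD_coord F L hle)

/-- the subtype embeddings of the chart rings. -/
def β0 : ↥(B0K F (K1 M)) →+* FK M (K1 M) := (B0K F (K1 M)).val.toRingHom

def β1 : ↥(B1K F (K1 M)) →+* FK M (K1 M) := (B1K F (K1 M)).val.toRingHom

def β01 : ↥(B0K F (K1 M) ⊔ B1K F (K1 M)) →+* FK M (K1 M) :=
  (B0K F (K1 M) ⊔ B1K F (K1 M)).val.toRingHom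

@[simp] theorem β0_apply (b : ↥(B0K F (K1 M))) : β0 F b = (b : FK M (K1 M)) := rfl
@[simp] theorem β1_apply (b : ↥(B1K F (K1 M))) : β1 F b = (b : FK M (K1 M)) := rfl
@[simp] theorem β01_apply (b : ↥(B0K F (K1 M) ⊔ B1K F (K1 M))) :
    β01 F b = (b : FK M (K1 M)) := rfl

theorem bcD_iF_apply (x : FK M (K1 M)) : (bcD ℓ M L hle).iF x = cLL M hle x := by
  rw [bcD_iF_eq_cLL]

/-- **`E F L hle` is standard on pure tensors.** -/
theorem isStdIso :
    letI := algAKL (padicPlace ℓ) hle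
    IsStdIso M hle (β0 F) (β1 F) (β01 F) (E F L hle) := by
  letI := algAK (padicPlace ℓ) hle
  letI := algAKL (padicPlace ℓ) hle
  refine isStdIso_of_tmul ?_ ?_ ?_
  · intro l b
    have h1 : (E F L hle).ι0 (l ⊗ₜ[Wr ℓ M] b) = (E0 F L hle).ι0 (l ⊗ₜ[Wr ℓ M] b) :=
      congrArg (fun f : ↥L ⊗[Wr ℓ M] ↥(B0K F (K1 M)) →+* FK M L => f (l ⊗ₜ[Wr ℓ M] b))
        (copyIso_ι0 (E0 F L hle) (bcD_coord F L hle))
    have h2 : (E0 F L hle).ι0 (l ⊗ₜ[Wr ℓ M] b) =
        algebraMap ↥L (FK M L) l * (bcD ℓ M L hle).iF (b : FK M (K1 M)) := rfl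
    exact h1.trans (h2.trans (congrArg (fun x => algebraMap ↥L (FK M L) l * x)
      (bcD_iF_apply L hle (b : FK M (K1 M)))))
  · intro l b
    have h1 : (E F L hle).ι1 (l ⊗ₜ[Wr ℓ M] b) = (E0 F L hle).ι1 (l ⊗ₜ[Wr ℓ M] b) :=
      congrArg (fun f : ↥L ⊗[Wr ℓ M] ↥(B1K F (K1 M)) →+* FK M L => f (l ⊗ₜ[Wr ℓ M] b))
        (copyIso_ι1 (E0 F L hle) (bcD_coord F L hle))
    have h2 : (E0 F L hle).ι1 (l ⊗ₜ[Wr ℓ M] b) =
        algebraMap ↥L (FK M L) l * (bcD ℓ M L hle).iF (b : FK M (K1 M)) := rfl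
    exact h1.trans (h2.trans (congrArg (fun x => algebraMap ↥L (FK M L) l * x)
      (bcD_iF_apply L hle (b : FK M (K1 M)))))
  · intro l b
    have h1 : (E F L hle).e01 (l ⊗ₜ[Wr ℓ M] b) = (E0 F L hle).e01 (l ⊗ₜ[Wr ℓ M] b) :=
      congrArg (fun f : ↥L ⊗[Wr ℓ M] ↥(B0K F (K1 M) ⊔ B1K F (K1 M)) →+* FK M L =>
        f (l ⊗ₜ[Wr ℓ M] b)) (copyIso_e01 (E0 F L hle) (bcD_coord F L hle))
    have h2 : (E0 F L hle).e01 (l ⊗ₜ[Wr ℓ M] b) =
        algebraMap ↥L (FK M L) l * (bcD ℓ M L hle).iF (b : FK M (K1 M)) := rfl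
    exact h1.trans (h2.trans (congrArg (fun x => algebraMap ↥L (FK M L) l * x)
      (bcD_iF_apply L hle (b : FK M (K1 M)))))

include hle in
/-- the coordinate over `L` is a separating coordinate. -/
theorem isCoord : IsCoord M (tK F L) :=
  ⟨(explicitK F L (hle (zetaK_mem_K1 M))).transc, (explicitK F L (hle (zetaK_mem_K1 M))).finite⟩

end Iso

/-! ### the family -/

/-- **The chart isomorphism family of the concrete hub**, for any chart action which is the
arithmetic action on the two charts. -/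
def chartIsoFamily (F : ModelFamily ℓ M n e) (H : ChartAction (c0 F :) (Gp ℓ))
    (hσ0 : ∀ (σ : Gp ℓ) (b : ↥(B0K F (K1 M))),
      (((H.S σ).σ0 b : ↥(B0K F (K1 M))) : FK M (K1 M)) =
        arith M (K1 M) (resL (K1 M) (localGaloisToGlobal ℓ σ)) (b : FK M (K1 M)))
    (hσ1 : ∀ (σ : Gp ℓ) (b : ↥(B1K F (K1 M))),
      (((H.S σ).σ1 b : ↥(B1K F (K1 M))) : FK M (K1 M)) =
        arith M (K1 M) (resL (K1 M) (localGaloisToGlobal ℓ σ)) (b : FK M (K1 M))) :
    ChartIsoFamily ℓ M (c0 F :) H :=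
  Fermat.Agent.T1.ChartIsoFam90.chartIsoFamily_of_std ℓ M (c0 F :) H (β0 F) (β1 F) (β01 F)
    hσ0 hσ1 (fun L _ _ => tK F L) (fun L _ hle => isCoord F L hle)
    (fun L _ hle => E F L hle) (fun L _ hle => isStdIso F L hle)

end Fermat.Agent.T1.ModelFacts62.ChartIsoConcrete
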