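/-
T1A (S19), brick G2-X MODEL-FACTS (helper62), file 4: (T8) `CoordInj23.H0Const` for the hub rings
`C_j = O ⊗[W] B_j`, by transport from `H⁰` of the model over `L` (`ModelCoh30.h0`: `B0' ∩ B1' = O`
when `L` is algebraically closed in `F'`).

The isomorphisms `e0`, `e1`, `e01` (helper51's G2 base change isomorphisms) are hypotheses; their
compatibility with the restriction maps is stated on values in `F'`.
-/
import Mathlib
import Fermat.Agent.T1.ModelFacts62.Hub
import Fermat.Agent.T1.CoordInj23.Core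
import Fermat.Agent.Jac.BaseChange75.Rings

set_option autoImplicit false
set_option linter.unusedSectionVars false
set_option linter.style.haveILetI false

open TensorProduct

namespace Fermat.Agent.T1.ModelFacts62

open Fermat.Agent.RED.CORE.CoreIface24 Fermat.Agent.T1.ModelCoh30 Fermat.Agent.T1.CoordInj23
open scoped Fermat.Agent.Jac.BaseChange75

universe u

variable {W O B0 B1 B01 : Type u} [CommRing W] [CommRing O] [CommRing B0] [CommRing B1]
  [CommRing B01] [Algebra W O] [Algebra W B0] [Algebra W B1] [Algebra W B01]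
  [Algebra B0 B01] [Algebra B1 B01] [IsScalarTower W B0 B01] [IsScalarTower W B1 B01]
variable {L F' : Type u} [Field L] [Field F'] [Algebra O L] [Algebra L F'] [Algebra O F']
  [IsScalarTower O L F']
  {π' : O} {t' : F'} {B0' B1' : Subalgebra O F'} {Ov' : ValuationSubring F'}

/-- **(T8)** the structure sheaf of `X_O` has only constant global sections, in helper23's form
`CoordInj23.H0Const O C_0 C_1 C_01`. -/
theorem hub_h0Const (hL : TwoChartModel O L F' π' t' B0' B1' Ov')
    (hKF : ∀ y : F', IsAlgebraic L y → ∃ c : L, algebraMap L F' c = y)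
    (B01' : Subalgebra O F')
    (e0 : (O ⊗[W] B0) ≃ₐ[O] ↥B0') (e1 : (O ⊗[W] B1) ≃ₐ[O] ↥B1')
    (e01 : (O ⊗[W] B01) ≃ₐ[O] ↥B01')
    (hc0 : ∀ x : O ⊗[W] B0,
      ((e01 (algebraMap (O ⊗[W] B0) (O ⊗[W] B01) x) : ↥B01') : F') = ((e0 x : ↥B0') : F'))
    (hc1 : ∀ x : O ⊗[W] B1,
      ((e01 (algebraMap (O ⊗[W] B1) (O ⊗[W] B01) x) : ↥B01') : F') = ((e1 x : ↥B1') : F')) :
    H0Const O (O ⊗[W] B0) (O ⊗[W] B1) (O ⊗[W] B01) := by
  intro x0 x1 hx
  have h01 : ((e0 x0 : ↥B0') : F') = ((e1 x1 : ↥B1') : F') := by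
    rw [← hc0 x0, ← hc1 x1, hx]
  obtain ⟨r, hr⟩ := Fermat.Agent.T1.ModelCoh30.h0 hL hKF (e0 x0).2 (by rw [h01]; exact (e1 x1).2)
  refine ⟨r, ?_, ?_⟩
  · apply e0.injective
    rw [e0.commutes]
    exact Subtype.ext hr.symm
  · apply e1.injective
    rw [e1.commutes]
    exact Subtype.ext (by rw [← h01]; exact hr.symm)

end Fermat.Agent.T1.ModelFacts62
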